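import Fermat.Agent.S51.Defs

set_option autoImplicit false

namespace Fermat.Agent.S51

open WeierstrassCurve

section Shift

variable {K : Type*} [CommRing K]

theorem alg_shift_rel (V : WeierstrassCurve K) (ρ : K) :
    4 * shB8 V ρ = shB2 V ρ * shB6 V ρ - shB4 V ρ ^ 2 := by
  simp only [shB2, shB4, shB6, shB8]
  linear_combination V.b_relation

theorem alg_shift_c₄ (V : WeierstrassCurve K) (ρ : K) :
    V.c₄ = shB2 V ρ ^ 2 - 24 * shB4 V ρ := by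
  simp only [shB2, shB4, WeierstrassCurve.c₄]
  ring

theorem alg_shift_Δ (V : WeierstrassCurve K) (ρ : K) :
    V.Δ = -shB2 V ρ ^ 2 * shB8 V ρ - 8 * shB4 V ρ ^ 3 - 27 * shB6 V ρ ^ 2
      + 9 * shB2 V ρ * shB4 V ρ * shB6 V ρ := by
  simp only [shB2, shB4, shB6, shB8, WeierstrassCurve.Δ]
  linear_combination (6 * ρ * V.b₂ + 36 * ρ ^ 2) * V.b_relation

theorem alg_shB8_eq_psi3 (V : WeierstrassCurve K) (ρ : K) : shB8 V ρ = psi3 V ρ := by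
  simp only [shB8, psi3]
  ring

end Shift

theorem exists_u_of_psi3 (E : WeierstrassCurve ℚ) (hΔ : E.Δ ≠ 0) (x : ℚ) (hx : psi3 E x = 0) :
    ∃ u : ℚ, u ≠ 0 ∧ E.c₄ ^ 3 * u = E.Δ * ((u + 27) * (u + 3) ^ 3) := by
  have h8 : shB8 E x = 0 := by rw [alg_shB8_eq_psi3, hx]
  have hrel := alg_shift_rel E x
  have hc4 := alg_shift_c₄ E x
  have hD := alg_shift_Δ E x
  rw [h8] at hrel hD
  set B2 := shB2 E x with hB2
  set B4 := shB4 E x with hB4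
  set B6 := shB6 E x with hB6
  have h26 : B2 * B6 = B4 ^ 2 := by linear_combination -hrel
  have hD' : E.Δ = B4 ^ 3 - 27 * B6 ^ 2 := by
    rw [hD]; linear_combination 9 * B4 * h26
  by_cases h4 : B4 = 0
  · refine ⟨-27, by norm_num, ?_⟩
    have hB6ne : B6 ≠ 0 := by
      intro h6
      apply hΔ
      rw [hD', h4, h6]; ring
    have hB2z : B2 = 0 := by
      have : B2 * B6 = 0 := by rw [h26, h4]; ring
      rcases mul_eq_zero.1 this with h | h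
      · exact h
      · exact absurd h hB6ne
    rw [hc4, hB2z, h4]
    ring
  · have hB2ne : B2 ≠ 0 := by
      intro h2
      apply h4
      have : B4 ^ 2 = 0 := by rw [← h26, h2]; ring
      exact pow_eq_zero_iff (by norm_num) |>.1 this
    have hB6 : B6 = B4 ^ 2 / B2 := by
      field_simp
      linear_combination h26
    have hune : B2 ^ 2 - 27 * B4 ≠ 0 := by
      intro hz
      apply hΔ
      rw [hD', hB6]
      field_simp
      linear_combination B4 ^ 3 * hz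
    refine ⟨(B2 ^ 2 - 27 * B4) / B4, div_ne_zero hune h4, ?_⟩
    rw [hc4, hD', hB6]
    field_simp
    ring

theorem exists_h_of_five (E : WeierstrassCurve ℚ) (hΔ : E.Δ ≠ 0) (ρ r : ℚ) (hr : r ≠ 0)
    (hI : 5 * r ^ 2 + shB4 E ρ * r - shB8 E ρ = 0) (hII : shB2 E ρ * r = shB6 E ρ) :
    ∃ h : ℚ, h ≠ 0 ∧ E.c₄ ^ 3 * h = E.Δ * (h ^ 2 + 10 * h + 5) ^ 3 := by
  have hrel := alg_shift_rel E ρ
  have hc4 := alg_shift_c₄ E ρ
  have hD := alg_shift_Δ E ρ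
  set B2 := shB2 E ρ with hB2
  set B4 := shB4 E ρ with hB4
  set B6 := shB6 E ρ with hB6
  set B8 := shB8 E ρ with hB8
  have h8 : B8 = 5 * r ^ 2 + B4 * r := by linear_combination -hI
  have hs : B2 ^ 2 * r = B4 ^ 2 + 4 * B4 * r + 20 * r ^ 2 := by
    rw [← hII, h8] at hrel
    linear_combination -hrel
  have hD' : E.Δ = 32 * r ^ 2 * (B4 - 20 * r) := by
    rw [hD, ← hII, h8]
    linear_combination (8 * B4 - 32 * r) * hs
  have hc4' : E.c₄ * r = B4 ^ 2 - 20 * B4 * r + 20 * r ^ 2 := by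
    rw [hc4]
    linear_combination hs
  have hne : B4 - 20 * r ≠ 0 := by
    intro hz
    apply hΔ
    rw [hD', hz]; ring
  refine ⟨(B4 - 20 * r) / (2 * r), div_ne_zero hne (mul_ne_zero two_ne_zero hr), ?_⟩
  have hc4'' : E.c₄ = (B4 ^ 2 - 20 * B4 * r + 20 * r ^ 2) / r := by
    field_simp
    linear_combination hc4'
  rw [hc4'', hD']
  field_simp
  ring

theorem five_rel_symm {K : Type*} [Field K] [CharZero K] (V : WeierstrassCurve K) (x₁ x₂ : K)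
    (hne : x₁ ≠ x₂) (h1 : dupNum V x₁ = x₂ * dupDen V x₁)
    (h2 : dupNum V x₂ = x₁ * dupDen V x₂) :
    5 * (((x₁ - x₂) / 2) ^ 2) ^ 2 + shB4 V ((x₁ + x₂) / 2) * ((x₁ - x₂) / 2) ^ 2
        - shB8 V ((x₁ + x₂) / 2) = 0 ∧
      shB2 V ((x₁ + x₂) / 2) * ((x₁ - x₂) / 2) ^ 2 = shB6 V ((x₁ + x₂) / 2) := by
  simp only [dupNum, dupDen] at h1 h2
  simp only [shB2, shB4, shB6, shB8]
  constructor
  · linear_combination (1 / 2 : K) * h1 + (1 / 2 : K) * h2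
  · have hsub : x₁ - x₂ ≠ 0 := sub_ne_zero.2 hne
    apply mul_left_cancel₀ hsub
    linear_combination h1 - h2

theorem alg_five_dvd_of_dvd_mul_cube {a c : ℤ} (ha : ¬ (5 : ℤ) ∣ a) (h : (5 : ℤ) ∣ a * c ^ 3) :
    (5 : ℤ) ∣ c := by
  have hp : Prime (5 : ℤ) := Int.prime_iff_natAbs_prime.2 (by norm_num)
  rcases hp.dvd_or_dvd h with h' | h'
  · exact absurd h' ha
  · exact hp.dvd_of_dvd_pow h'

theorem not_semistable_of_h (c₄ Δ : ℤ) (hΔ : Δ ≠ 0)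
    (hss : ∀ p : ℕ, p.Prime → (p : ℤ) ∣ Δ → ¬ (p : ℤ) ∣ c₄) (h : ℚ)
    (hh : (c₄ : ℚ) ^ 3 * h = (Δ : ℚ) * (h ^ 2 + 10 * h + 5) ^ 3) :
    h ≠ -10 ∧ h ≠ -25 / 2 ∧ h ≠ -40 ∧ h ≠ -25 / 8 := by
  have hss5 : (5 : ℤ) ∣ Δ → ¬ (5 : ℤ) ∣ c₄ := fun h1 => by
    have := hss 5 Nat.prime_five (by exact_mod_cast h1)
    exact_mod_cast this
  refine ⟨?_, ?_, ?_, ?_⟩
  · intro heq
    rw [heq] at hh
    have key : (-2 : ℚ) * (c₄ : ℚ) ^ 3 = 25 * (Δ : ℚ) := by linarith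
    have keyZ : (-2 : ℤ) * c₄ ^ 3 = 25 * Δ := by exact_mod_cast key
    have h5c : (5 : ℤ) ∣ c₄ :=
      alg_five_dvd_of_dvd_mul_cube (a := -2) (by norm_num) ⟨5 * Δ, by rw [keyZ]; ring⟩
    obtain ⟨k, rfl⟩ := h5c
    have h5Δ : (5 : ℤ) ∣ Δ := ⟨-2 * k ^ 3, by linarith [keyZ, show (5 * k) ^ 3 = 125 * k ^ 3 by ring]⟩
    exact hss5 h5Δ ⟨k, rfl⟩
  · intro heq
    rw [heq] at hh
    have key : (-32 : ℚ) * (c₄ : ℚ) ^ 3 = 5 * 29 ^ 3 * (Δ : ℚ) := by linarith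
    have keyZ : (-32 : ℤ) * c₄ ^ 3 = 5 * 29 ^ 3 * Δ := by exact_mod_cast key
    have h5c : (5 : ℤ) ∣ c₄ :=
      alg_five_dvd_of_dvd_mul_cube (a := -32) (by norm_num) ⟨29 ^ 3 * Δ, by rw [keyZ]; ring⟩
    obtain ⟨k, rfl⟩ := h5c
    have h29 : (-800 : ℤ) * k ^ 3 = 29 ^ 3 * Δ := by
      linarith [keyZ, show (5 * k) ^ 3 = 125 * k ^ 3 by ring]
    have h5Δ : (5 : ℤ) ∣ Δ := by
      have hp : Prime (5 : ℤ) := Int.prime_iff_natAbs_prime.2 (by norm_num)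
      have : (5 : ℤ) ∣ 29 ^ 3 * Δ := ⟨-160 * k ^ 3, by rw [← h29]; ring⟩
      rcases hp.dvd_or_dvd this with h' | h'
      · norm_num at h'
      · exact h'
    exact hss5 h5Δ ⟨k, rfl⟩
  · intro heq
    rw [heq] at hh
    have key : (-8 : ℚ) * (c₄ : ℚ) ^ 3 = 25 * 241 ^ 3 * (Δ : ℚ) := by linarith
    have keyZ : (-8 : ℤ) * c₄ ^ 3 = 25 * 241 ^ 3 * Δ := by exact_mod_cast key
    have h5c : (5 : ℤ) ∣ c₄ :=
      alg_five_dvd_of_dvd_mul_cube (a := -8) (by norm_num)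
        ⟨5 * 241 ^ 3 * Δ, by rw [keyZ]; ring⟩
    obtain ⟨k, rfl⟩ := h5c
    have h241 : (-40 : ℤ) * k ^ 3 = 241 ^ 3 * Δ := by
      linarith [keyZ, show (5 * k) ^ 3 = 125 * k ^ 3 by ring]
    have h5Δ : (5 : ℤ) ∣ Δ := by
      have hp : Prime (5 : ℤ) := Int.prime_iff_natAbs_prime.2 (by norm_num)
      have : (5 : ℤ) ∣ 241 ^ 3 * Δ := ⟨-8 * k ^ 3, by rw [← h241]; ring⟩
      rcases hp.dvd_or_dvd this with h' | h'
      · norm_num at h'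
      · exact h'
    exact hss5 h5Δ ⟨k, rfl⟩
  · intro heq
    rw [heq] at hh
    have key : (32768 : ℚ) * (c₄ : ℚ) ^ 3 = 5 * 211 ^ 3 * (Δ : ℚ) := by linarith
    have keyZ : (32768 : ℤ) * c₄ ^ 3 = 5 * 211 ^ 3 * Δ := by exact_mod_cast key
    have h5c : (5 : ℤ) ∣ c₄ :=
      alg_five_dvd_of_dvd_mul_cube (a := 32768) (by norm_num)
        ⟨211 ^ 3 * Δ, by rw [keyZ]; ring⟩
    obtain ⟨k, rfl⟩ := h5c
    have h211 : (819200 : ℤ) * k ^ 3 = 211 ^ 3 * Δ := by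
      linarith [keyZ, show (5 * k) ^ 3 = 125 * k ^ 3 by ring]
    have h5Δ : (5 : ℤ) ∣ Δ := by
      have hp : Prime (5 : ℤ) := Int.prime_iff_natAbs_prime.2 (by norm_num)
      have : (5 : ℤ) ∣ 211 ^ 3 * Δ := ⟨163840 * k ^ 3, by rw [← h211]; ring⟩
      rcases hp.dvd_or_dvd this with h' | h'
      · norm_num at h'
      · exact h'
    exact hss5 h5Δ ⟨k, rfl⟩

end Fermat.Agent.S51
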