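import Fermat.Agent.S51.Defs

set_option autoImplicit false
set_option linter.unusedSectionVars false

/-!
# S51: basic lemmas on `x`-coordinates and duplication (shared base file)

For a Weierstrass curve `V` over a field and a nonzero affine point `P`:
`xc (-P) = xc P`, equal `x`-coordinates force `P = ± Q`, the duplication denominator
`dupDen V (xc P)` vanishes exactly when `2 • P = 0`, and otherwise
`xc (2 • P) * dupDen V (xc P) = dupNum V (xc P)`.
-/

namespace Fermat.Agent.S51

open WeierstrassCurve WeierstrassCurve.Affine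

variable {k : Type*} [Field k] [DecidableEq k] {V : Affine k}

theorem xc_zero : xc (0 : V.Point) = 0 := rfl

theorem xc_some {x y : k} (h : V.Nonsingular x y) : xc (Point.some x y h) = x := rfl

theorem xc_neg (P : V.Point) : xc (-P) = xc P := by
  cases P <;> rfl

theorem eq_or_eq_neg_of_xc_eq {P Q : V.Point} (hP : P ≠ 0) (hQ : Q ≠ 0) (h : xc P = xc Q) :
    P = Q ∨ P = -Q := by
  match P, Q with
  | .zero, _ => exact absurd rfl hP
  | .some _ _ _, .zero => exact absurd rfl hQ
  | .some x₁ y₁ h₁, .some x₂ y₂ h₂ => exact Point.X_eq_iff.mp h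

/-- On the curve, the duplication denominator is the square of `y - negY x y`. -/
theorem dup_dupDen_eq_sq {x y : k} (h : V.Equation x y) :
    dupDen V x = (y - V.negY x y) ^ 2 := by
  have hE := (equation_iff x y).mp h
  simp only [dupDen, negY, WeierstrassCurve.b₂, WeierstrassCurve.b₄, WeierstrassCurve.b₆]
  linear_combination (-4 : k) * hE

/-- Doubling an affine point gives zero exactly when `y = negY x y`. -/
theorem dup_two_nsmul_some_eq_zero_iff {x y : k} (h : V.Nonsingular x y) :
    2 • Point.some x y h = 0 ↔ y = V.negY x y := by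
  rw [two_nsmul]
  constructor
  · intro h0
    by_contra hy
    rw [Point.add_self_of_Y_ne hy] at h0
    exact Point.some_ne_zero _ h0
  · intro hy
    exact Point.add_self_of_Y_eq hy

theorem dupDen_eq_zero_iff {P : V.Point} (hP : P ≠ 0) : dupDen V (xc P) = 0 ↔ 2 • P = 0 := by
  match P with
  | .zero => exact absurd rfl hP
  | .some x y h =>
    rw [dup_two_nsmul_some_eq_zero_iff h, xc_some, dup_dupDen_eq_sq h.1, sq_eq_zero_iff,
      sub_eq_zero]

theorem xc_two_nsmul {P : V.Point} (hP : P ≠ 0) (h2 : 2 • P ≠ 0) :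
    xc (2 • P) * dupDen V (xc P) = dupNum V (xc P) := by
  match P with
  | .zero => exact absurd rfl hP
  | .some x y h =>
    have hy : y ≠ V.negY x y := fun hy => h2 ((dup_two_nsmul_some_eq_zero_iff h).mpr hy)
    have hD : y - V.negY x y ≠ 0 := sub_ne_zero.mpr hy
    have hE := (equation_iff x y).mp h.1
    have key : (3 * x ^ 2 + 2 * V.a₂ * x + V.a₄ - V.a₁ * y) ^ 2
        + V.a₁ * (3 * x ^ 2 + 2 * V.a₂ * x + V.a₄ - V.a₁ * y) * (y - V.negY x y)
        - (V.a₂ + 2 * x) * (y - V.negY x y) ^ 2 = dupNum V x := by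
      simp only [dupNum, negY, WeierstrassCurve.b₄, WeierstrassCurve.b₆, WeierstrassCurve.b₈]
      linear_combination (-(V.a₁ ^ 2 + 4 * V.a₂ + 8 * x)) * hE
    rw [two_nsmul, Point.add_self_of_Y_ne hy, xc_some, xc_some, dup_dupDen_eq_sq h.1, ← key,
      slope_of_Y_ne rfl hy, addX]
    field_simp
    ring

theorem psi3_eq (V : WeierstrassCurve k) (x : k) :
    psi3 V x = x * dupDen V x - dupNum V x := by
  simp only [psi3, dupDen, dupNum]
  ring

end Fermat.Agent.S51
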