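import Fermat.Agent.S51.Defs
import Fermat.Agent.S51.Algebra

set_option autoImplicit false

namespace Fermat.Agent.S51

open WeierstrassCurve

theorem gd_algebra_rat_eq :
    (DivisionRing.toRatAlgebra : Algebra ℚ (AlgebraicClosure ℚ)) =
      AlgebraicClosure.instAlgebra ℚ := Subsingleton.elim _ _

theorem gd_isAlgebraic : Algebra.IsAlgebraic ℚ (AlgebraicClosure ℚ) := by
  rw [gd_algebra_rat_eq]; infer_instance

theorem gd_isAlgClosure : IsAlgClosure ℚ (AlgebraicClosure ℚ) :=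
  ⟨inferInstance, gd_isAlgebraic⟩

theorem gd_isGalois : IsGalois ℚ (AlgebraicClosure ℚ) := by
  have := gd_isAlgebraic
  have := gd_isAlgClosure
  infer_instance

/-- An element of `ℚ̄` fixed by the whole absolute Galois group is rational. -/
theorem gd_rat_of_fixed (x : AlgebraicClosure ℚ)
    (h : ∀ σ : AlgebraicClosure ℚ ≃ₐ[ℚ] AlgebraicClosure ℚ, σ x = x) :
    ∃ q : ℚ, algebraMap ℚ (AlgebraicClosure ℚ) q = x := by
  have := gd_isGalois
  exact (InfiniteGalois.mem_range_algebraMap_iff_fixed x).mpr h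

section BaseChange

variable {A : Type*} [CommRing A] {B : Type*} [CommRing B] (f : A →+* B)

theorem gd_psi3_map (E : WeierstrassCurve A) (q : A) :
    psi3 (E.map f) (f q) = f (psi3 E q) := by
  simp only [psi3, WeierstrassCurve.map_b₂, WeierstrassCurve.map_b₄, WeierstrassCurve.map_b₆,
    WeierstrassCurve.map_b₈, map_add, map_mul, map_pow, map_ofNat]

theorem gd_shB2_map (E : WeierstrassCurve A) (q : A) :
    shB2 (E.map f) (f q) = f (shB2 E q) := by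
  simp only [shB2, WeierstrassCurve.map_b₂, map_add, map_mul, map_ofNat]

theorem gd_shB4_map (E : WeierstrassCurve A) (q : A) :
    shB4 (E.map f) (f q) = f (shB4 E q) := by
  simp only [shB4, WeierstrassCurve.map_b₂, WeierstrassCurve.map_b₄, map_add, map_mul, map_pow,
    map_ofNat]

theorem gd_shB6_map (E : WeierstrassCurve A) (q : A) :
    shB6 (E.map f) (f q) = f (shB6 E q) := by
  simp only [shB6, WeierstrassCurve.map_b₂, WeierstrassCurve.map_b₄, WeierstrassCurve.map_b₆,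
    map_add, map_mul, map_pow, map_ofNat]

theorem gd_shB8_map (E : WeierstrassCurve A) (q : A) :
    shB8 (E.map f) (f q) = f (shB8 E q) := by
  simp only [shB8, WeierstrassCurve.map_b₂, WeierstrassCurve.map_b₄, WeierstrassCurve.map_b₆,
    WeierstrassCurve.map_b₈, map_add, map_mul, map_pow, map_ofNat]

end BaseChange

theorem rat_psi3_of_fixed (E : WeierstrassCurve ℚ) (x : AlgebraicClosure ℚ)
    (hx : psi3 (E.baseChange (AlgebraicClosure ℚ)) x = 0)
    (hσ : ∀ σ : AlgebraicClosure ℚ ≃ₐ[ℚ] AlgebraicClosure ℚ, σ x = x) :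
    ∃ q : ℚ, psi3 E q = 0 := by
  obtain ⟨q, rfl⟩ := gd_rat_of_fixed x hσ
  refine ⟨q, ?_⟩
  have h := gd_psi3_map (algebraMap ℚ (AlgebraicClosure ℚ)) E q
  have hx' : psi3 (E.map (algebraMap ℚ (AlgebraicClosure ℚ)))
      (algebraMap ℚ (AlgebraicClosure ℚ) q) = 0 := hx
  rw [h] at hx'
  exact (map_eq_zero (algebraMap ℚ (AlgebraicClosure ℚ))).1 hx'

theorem rat_five_of_swap (E : WeierstrassCurve ℚ) (x₁ x₂ : AlgebraicClosure ℚ) (hne : x₁ ≠ x₂)
    (h1 : dupNum (E.baseChange (AlgebraicClosure ℚ)) x₁ =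
      x₂ * dupDen (E.baseChange (AlgebraicClosure ℚ)) x₁)
    (h2 : dupNum (E.baseChange (AlgebraicClosure ℚ)) x₂ =
      x₁ * dupDen (E.baseChange (AlgebraicClosure ℚ)) x₂)
    (hσ : ∀ σ : AlgebraicClosure ℚ ≃ₐ[ℚ] AlgebraicClosure ℚ,
      (σ x₁ = x₁ ∧ σ x₂ = x₂) ∨ (σ x₁ = x₂ ∧ σ x₂ = x₁)) :
    ∃ ρ r : ℚ, r ≠ 0 ∧ 5 * r ^ 2 + shB4 E ρ * r - shB8 E ρ = 0 ∧ shB2 E ρ * r = shB6 E ρ := by
  set φ := algebraMap ℚ (AlgebraicClosure ℚ) with hφ
  have hρfix : ∀ σ : AlgebraicClosure ℚ ≃ₐ[ℚ] AlgebraicClosure ℚ,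
      σ ((x₁ + x₂) / 2) = (x₁ + x₂) / 2 := by
    intro σ
    rw [map_div₀, map_add, map_ofNat]
    rcases hσ σ with ⟨ha, hb⟩ | ⟨ha, hb⟩
    · rw [ha, hb]
    · rw [ha, hb, add_comm]
  have hrfix : ∀ σ : AlgebraicClosure ℚ ≃ₐ[ℚ] AlgebraicClosure ℚ,
      σ (((x₁ - x₂) / 2) ^ 2) = ((x₁ - x₂) / 2) ^ 2 := by
    intro σ
    rw [map_pow, map_div₀, map_sub, map_ofNat]
    rcases hσ σ with ⟨ha, hb⟩ | ⟨ha, hb⟩
    · rw [ha, hb]
    · rw [ha, hb]; ring
  obtain ⟨ρ, hρ⟩ := gd_rat_of_fixed _ hρfix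
  obtain ⟨r, hr⟩ := gd_rat_of_fixed _ hrfix
  have hsymm := five_rel_symm (E.baseChange (AlgebraicClosure ℚ)) x₁ x₂ hne h1 h2
  rw [← hρ, ← hr] at hsymm
  obtain ⟨hI, hII⟩ := hsymm
  have hinj : Function.Injective φ := φ.injective
  refine ⟨ρ, r, ?_, ?_, ?_⟩
  · rintro rfl
    have h0 : ((x₁ - x₂) / 2) ^ 2 = 0 := by rw [← hr]; exact map_zero _
    have h0' : x₁ - x₂ = 0 := by
      have := pow_eq_zero_iff (two_ne_zero) |>.1 h0
      rcases div_eq_zero_iff.1 this with h | h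
      · exact h
      · exact absurd h two_ne_zero
    exact hne (sub_eq_zero.1 h0')
  · apply hinj
    have e4 : shB4 (E.baseChange (AlgebraicClosure ℚ)) (φ ρ) = φ (shB4 E ρ) := gd_shB4_map φ E ρ
    have e8 : shB8 (E.baseChange (AlgebraicClosure ℚ)) (φ ρ) = φ (shB8 E ρ) := gd_shB8_map φ E ρ
    rw [e4, e8] at hI
    rw [map_zero, map_sub, map_add, map_mul, map_mul, map_pow, map_ofNat]
    exact hI
  · apply hinj
    have e2 : shB2 (E.baseChange (AlgebraicClosure ℚ)) (φ ρ) = φ (shB2 E ρ) := gd_shB2_map φ E ρ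
    have e6 : shB6 (E.baseChange (AlgebraicClosure ℚ)) (φ ρ) = φ (shB6 E ρ) := gd_shB6_map φ E ρ
    rw [e2, e6] at hII
    rw [map_mul]
    exact hII

end Fermat.Agent.S51
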