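import Fermat.Agent.S51.Defs
import Fermat.Agent.S51.Dup

set_option autoImplicit false

namespace Fermat.Agent.S51

open WeierstrassCurve WeierstrassCurve.Affine

variable {k : Type*} [Field k] [DecidableEq k]

/-- A nonzero `3`-torsion point has `x`-coordinate a root of `psi3`. -/
theorem psi3_xc_of_three_nsmul {V : Affine k} {P : V.Point} (hP0 : P ≠ 0) (hP : 3 • P = 0) :
    psi3 V (xc P) = 0 := by
  have h2 : 2 • P = -P := by
    have h : 2 • P + P = 0 := by
      rw [← hP]; simp only [succ_nsmul, zero_nsmul, zero_add]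
    exact eq_neg_of_add_eq_zero_left h
  have h2ne : 2 • P ≠ 0 := by
    rw [h2]; exact neg_ne_zero.mpr hP0
  have hx := xc_two_nsmul hP0 h2ne
  rw [h2, xc_neg] at hx
  rw [psi3_eq]
  linear_combination hx

open Polynomial in
/-- The polynomial whose evaluation is `psi3`. -/
noncomputable def t3_psi3Poly (V : WeierstrassCurve k) : k[X] :=
  C 3 * X ^ 4 + C V.b₂ * X ^ 3 + C (3 * V.b₄) * X ^ 2 + C (3 * V.b₆) * X + C V.b₈

omit [DecidableEq k] in
open Polynomial in
theorem t3_psi3Poly_eval (V : WeierstrassCurve k) (x : k) :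
    (t3_psi3Poly V).eval x = psi3 V x := by
  simp only [t3_psi3Poly, psi3, eval_add, eval_mul, eval_C, eval_pow, eval_X]

omit [DecidableEq k] in
open Polynomial in
theorem t3_psi3Poly_natDegree [CharZero k] (V : WeierstrassCurve k) :
    (t3_psi3Poly V).natDegree = 4 := by
  unfold t3_psi3Poly
  compute_degree!

omit [DecidableEq k] in
open Polynomial in
theorem t3_psi3Poly_ne_zero [CharZero k] (V : WeierstrassCurve k) :
    t3_psi3Poly V ≠ 0 := by
  intro h
  have := t3_psi3Poly_natDegree V
  rw [h] at this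
  simp at this

omit [DecidableEq k] in
/-- A common root of `psi3` and `dupDen` forces the discriminant to vanish. -/
theorem t3_dupDen_ne_zero [CharZero k] (V : WeierstrassCurve k) (hΔ : V.Δ ≠ 0) (x : k)
    (h3 : psi3 V x = 0) : dupDen V x ≠ 0 := by
  intro hM
  unfold psi3 at h3
  unfold dupDen at hM
  have hrel := V.b_relation
  have hM'sq : (12 * x ^ 2 + 2 * V.b₂ * x + 2 * V.b₄) ^ 2 = 0 := by
    linear_combination (2 * (24 * x + 2 * V.b₂)) * hM - 16 * h3 + 4 * hrel
  have hM' : 12 * x ^ 2 + 2 * V.b₂ * x + 2 * V.b₄ = 0 := by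
    exact pow_eq_zero_iff (two_ne_zero) |>.mp hM'sq
  apply hΔ
  have h576 : (576 : k) * V.Δ = 0 := by
    rw [WeierstrassCurve.Δ]
    linear_combination
      (36 * (12 * (48 * V.b₄ - 2 * V.b₂ ^ 2) * x + 2 * V.b₂ * (48 * V.b₄ - 2 * V.b₂ ^ 2)
          - 12 * (36 * V.b₆ - 2 * V.b₂ * V.b₄))) * hM
      - ((48 * V.b₄ - 2 * V.b₂ ^ 2) ^ 2
          + (12 * (48 * V.b₄ - 2 * V.b₂ ^ 2) * x + 2 * V.b₂ * (48 * V.b₄ - 2 * V.b₂ ^ 2)
              - 12 * (36 * V.b₆ - 2 * V.b₂ * V.b₄)) * (12 * x + V.b₂)) * hM'
      - 144 * V.b₂ ^ 2 * hrel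
  have h576ne : (576 : k) ≠ 0 := by norm_num
  exact (mul_eq_zero.mp h576).resolve_left h576ne

open Polynomial in
/-- Existence of a nonzero `3`-torsion point over an algebraically closed field of
characteristic zero. -/
theorem exists_three_torsion [IsAlgClosed k] [CharZero k] (V : Affine k) (hΔ : V.Δ ≠ 0) :
    ∃ P : V.Point, P ≠ 0 ∧ 3 • P = 0 := by
  -- a root `x` of `psi3`
  obtain ⟨x, hx⟩ := IsAlgClosed.exists_root (t3_psi3Poly V) (by
    rw [degree_eq_natDegree (t3_psi3Poly_ne_zero V), t3_psi3Poly_natDegree]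
    norm_num)
  rw [IsRoot, t3_psi3Poly_eval] at hx
  -- a `y` above it
  obtain ⟨y, hy⟩ := IsAlgClosed.exists_root
    (X ^ 2 + C (V.a₁ * x + V.a₃) * X - C (x ^ 3 + V.a₂ * x ^ 2 + V.a₄ * x + V.a₆) : k[X]) (by
    have hdeg : (X ^ 2 + C (V.a₁ * x + V.a₃) * X
        - C (x ^ 3 + V.a₂ * x ^ 2 + V.a₄ * x + V.a₆) : k[X]).natDegree = 2 := by
      compute_degree!
    have hne : (X ^ 2 + C (V.a₁ * x + V.a₃) * X
        - C (x ^ 3 + V.a₂ * x ^ 2 + V.a₄ * x + V.a₆) : k[X]) ≠ 0 := by
      intro h
      rw [h] at hdeg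
      simp at hdeg
    rw [degree_eq_natDegree hne, hdeg]
    norm_num)
  simp only [IsRoot, eval_add, eval_sub, eval_mul, eval_C, eval_pow, eval_X] at hy
  have heq : V.Equation x y := by
    rw [Affine.equation_iff]
    linear_combination hy
  have hns : V.Nonsingular x y := (V.equation_iff_nonsingular_of_Δ_ne_zero hΔ).mp heq
  refine ⟨Point.some x y hns, ?_, ?_⟩
  · exact Point.some_ne_zero hns
  · set P : V.Point := Point.some x y hns with hPdef
    have hP0 : P ≠ 0 := Point.some_ne_zero hns
    have hxc : xc P = x := xc_some hns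
    have hM : dupDen V x ≠ 0 := t3_dupDen_ne_zero V hΔ x hx
    have h2 : 2 • P ≠ 0 := by
      intro h
      exact hM (by rw [← hxc]; exact (dupDen_eq_zero_iff hP0).mpr h)
    have hdup := xc_two_nsmul hP0 h2
    rw [hxc] at hdup
    have hpsi := psi3_eq V x
    rw [hx] at hpsi
    have hxeq : xc (2 • P) = xc P := by
      rw [hxc]
      have : (xc (2 • P) - x) * dupDen V x = 0 := by linear_combination hdup + hpsi
      rcases mul_eq_zero.mp this with h | h
      · exact sub_eq_zero.mp h
      · exact absurd h hM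
    rcases eq_or_eq_neg_of_xc_eq h2 hP0 hxeq with h | h
    · exfalso
      apply hP0
      have h' : P + P = P + 0 := by rw [← two_nsmul, add_zero]; exact h
      exact add_left_cancel h'
    · have : 3 • P = 2 • P + P := by
        simp only [succ_nsmul, zero_nsmul, zero_add]
      rw [this, h]
      exact neg_add_cancel P

set_option linter.unusedVariables false in
open Polynomial in
/-- The `3`-torsion is finite of cardinality at most `9`. -/
theorem three_torsion_finite [CharZero k] (V : Affine k) (hΔ : V.Δ ≠ 0) :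
    {P : V.Point | 3 • P = 0}.Finite ∧ {P : V.Point | 3 • P = 0}.ncard ≤ 9 := by
  classical
  let R : Finset k := (t3_psi3Poly V).roots.toFinset
  have hR : R.card ≤ 4 := by
    calc R.card ≤ Multiset.card (t3_psi3Poly V).roots := Multiset.toFinset_card_le _
      _ ≤ (t3_psi3Poly V).natDegree := Polynomial.card_roots' _
      _ = 4 := t3_psi3Poly_natDegree V
  let f : k → V.Point := fun r =>
    if h : ∃ P : V.Point, P ≠ 0 ∧ xc P = r then h.choose else 0
  let T : Finset V.Point := ({0} ∪ R.image f) ∪ R.image (fun r => - f r)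
  have hsub : {P : V.Point | 3 • P = 0} ⊆ (↑T : Set V.Point) := by
    intro P hP
    have hP' : 3 • P = 0 := hP
    by_cases hP0 : P = 0
    · simp [T, hP0]
    · have h3 := psi3_xc_of_three_nsmul hP0 hP'
      have hr : xc P ∈ R := by
        simp only [R, Multiset.mem_toFinset]
        rw [Polynomial.mem_roots (t3_psi3Poly_ne_zero V), IsRoot, t3_psi3Poly_eval]
        exact h3
      have hex : ∃ Q : V.Point, Q ≠ 0 ∧ xc Q = xc P := ⟨P, hP0, rfl⟩
      have hf : f (xc P) = hex.choose := dif_pos hex
      obtain ⟨hQ0, hQx⟩ := hex.choose_spec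
      rcases eq_or_eq_neg_of_xc_eq hP0 hQ0 hQx.symm with h | h
      · have : P ∈ R.image f := Finset.mem_image.mpr ⟨xc P, hr, by rw [hf]; exact h.symm⟩
        simp only [T, Finset.coe_union, Set.mem_union, Finset.mem_coe]
        exact Or.inl (Or.inr this)
      · have : P ∈ R.image (fun r => - f r) :=
          Finset.mem_image.mpr ⟨xc P, hr, by simp only [hf]; exact h.symm⟩
        simp only [T, Finset.coe_union, Set.mem_union, Finset.mem_coe]
        exact Or.inr this
  have hfin : {P : V.Point | 3 • P = 0}.Finite := T.finite_toSet.subset hsub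
  refine ⟨hfin, ?_⟩
  calc {P : V.Point | 3 • P = 0}.ncard ≤ (↑T : Set V.Point).ncard :=
        Set.ncard_le_ncard hsub T.finite_toSet
    _ = T.card := Set.ncard_coe_finset T
    _ ≤ (({0} : Finset V.Point) ∪ R.image f).card + (R.image (fun r => - f r)).card :=
        Finset.card_union_le _ _
    _ ≤ (({0} : Finset V.Point).card + (R.image f).card) + (R.image (fun r => - f r)).card :=
        Nat.add_le_add_right (Finset.card_union_le _ _) _
    _ ≤ (1 + R.card) + R.card := by
        have h1 : (R.image f).card ≤ R.card := Finset.card_image_le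
        have h2 : (R.image (fun r => - f r)).card ≤ R.card := Finset.card_image_le
        have h0 : ({0} : Finset V.Point).card = 1 := Finset.card_singleton _
        omega
    _ ≤ 9 := by omega

end Fermat.Agent.S51
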