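import Fermat.Agent.S51.Dup

set_option autoImplicit false

namespace Fermat.Agent.S51

open WeierstrassCurve WeierstrassCurve.Affine Polynomial

/-! ### Polynomial identities -/

section Identities

variable {R : Type*} [CommRing R]

/-- The polynomial `ψ₄ / ψ₂` as a function. -/
def t5_pre4 (V : WeierstrassCurve R) (x : R) : R :=
  2 * x ^ 6 + V.b₂ * x ^ 5 + 5 * V.b₄ * x ^ 4 + 10 * V.b₆ * x ^ 3 + 10 * V.b₈ * x ^ 2 +
    (V.b₂ * V.b₈ - V.b₄ * V.b₆) * x + (V.b₄ * V.b₈ - V.b₆ ^ 2)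

/-- `dupNum` and `dupDen` are coprime up to the discriminant. -/
theorem t5_disc (V : WeierstrassCurve R) (x : R) :
    (12 * x ^ 3 - V.b₂ * x ^ 2 - 10 * V.b₄ * x + V.b₂ * V.b₄ - 27 * V.b₆) * dupDen V x -
      (48 * x ^ 2 + 8 * V.b₂ * x + 32 * V.b₄ - V.b₂ ^ 2) * dupNum V x = V.Δ := by
  simp only [dupDen, dupNum, WeierstrassCurve.Δ]
  linear_combination (12 * x ^ 2 + 2 * x * V.b₂ + 8 * V.b₄) * V.b_relation

/-- (Id4): the homogenised `dupDen` at `dupNum / dupDen` is the square of `pre4`. -/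
theorem t5_id4 (V : WeierstrassCurve R) (x : R) :
    4 * dupNum V x ^ 3 + V.b₂ * dupNum V x ^ 2 * dupDen V x +
      2 * V.b₄ * dupNum V x * dupDen V x ^ 2 + V.b₆ * dupDen V x ^ 3 = t5_pre4 V x ^ 2 := by
  simp only [dupDen, dupNum, t5_pre4]
  linear_combination (-13 * x ^ 8 - 8 * x ^ 7 * V.b₂ - x ^ 6 * V.b₂ ^ 2 - 28 * x ^ 6 * V.b₄ - 6 * x ^ 5 * V.b₂ * V.b₄ - 38 * x ^ 5 * V.b₆ - 7 * x ^ 4 * V.b₂ * V.b₆ - 8 * x ^ 4 * V.b₄ ^ 2 - 22 * x ^ 4 * V.b₈ - 4 * x ^ 3 * V.b₂ * V.b₈ - 16 * x ^ 3 * V.b₄ * V.b₆ - 8 * x ^ 2 * V.b₄ * V.b₈ - 7 * x ^ 2 * V.b₆ ^ 2 - 6 * x * V.b₆ * V.b₈ - V.b₈ ^ 2) * V.b_relation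

/-- (Id5): the `x`-coordinate relation `x(4P) = x(P)` factors as `-ψ₃ ψ₅`. -/
theorem t5_id5 (V : WeierstrassCurve R) (x : R) :
    (dupNum V x ^ 4 - V.b₄ * dupNum V x ^ 2 * dupDen V x ^ 2 -
        2 * V.b₆ * dupNum V x * dupDen V x ^ 3 - V.b₈ * dupDen V x ^ 4) -
      x * dupDen V x * (4 * dupNum V x ^ 3 + V.b₂ * dupNum V x ^ 2 * dupDen V x +
        2 * V.b₄ * dupNum V x * dupDen V x ^ 2 + V.b₆ * dupDen V x ^ 3) =
      -psi3 V x * (t5_pre4 V x * dupDen V x ^ 2 - psi3 V x ^ 3) := by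
  simp only [dupDen, dupNum, t5_pre4, psi3]
  linear_combination (48 * x ^ 12 + 40 * x ^ 11 * V.b₂ + 11 * x ^ 10 * V.b₂ ^ 2 + 96 * x ^ 10 * V.b₄ + x ^ 9 * V.b₂ ^ 3 + 52 * x ^ 9 * V.b₂ * V.b₄ + 72 * x ^ 9 * V.b₆ + 7 * x ^ 8 * V.b₂ ^ 2 * V.b₄ + 38 * x ^ 8 * V.b₂ * V.b₆ + 60 * x ^ 8 * V.b₄ ^ 2 + 16 * x ^ 8 * V.b₈ + 5 * x ^ 7 * V.b₂ ^ 2 * V.b₆ + 16 * x ^ 7 * V.b₂ * V.b₄ ^ 2 + 8 * x ^ 7 * V.b₂ * V.b₈ + 84 * x ^ 7 * V.b₄ * V.b₆ + x ^ 6 * V.b₂ ^ 2 * V.b₈ + 22 * x ^ 6 * V.b₂ * V.b₄ * V.b₆ + 12 * x ^ 6 * V.b₄ ^ 3 + 16 * x ^ 6 * V.b₄ * V.b₈ + 27 * x ^ 6 * V.b₆ ^ 2 + 4 * x ^ 5 * V.b₂ * V.b₄ * V.b₈ + 7 * x ^ 5 * V.b₂ * V.b₆ ^ 2 + 24 * x ^ 5 * V.b₄ ^ 2 * V.b₆ + 8 * x ^ 5 * V.b₆ * V.b₈ + 2 * x ^ 4 * V.b₂ * V.b₆ * V.b₈ + 4 * x ^ 4 * V.b₄ ^ 2 * V.b₈ + 15 * x ^ 4 * V.b₄ * V.b₆ ^ 2 + 4 * x ^ 3 * V.b₄ * V.b₆ * V.b₈ + 3 * x ^ 3 * V.b₆ ^ 3 + x ^ 2 * V.b₆ ^ 2 * V.b₈) * V.b_relation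

/-- Clearing denominators in `dupNum(N/M) = x₁ * dupDen(N/M)`. -/
theorem t5_alg (b2 b4 b6 b8 x1 x2 N1 M1 : R) (h1 : N1 = x2 * M1)
    (h2 : x2 ^ 4 - b4 * x2 ^ 2 - 2 * b6 * x2 - b8 =
      x1 * (4 * x2 ^ 3 + b2 * x2 ^ 2 + 2 * b4 * x2 + b6)) :
    (N1 ^ 4 - b4 * N1 ^ 2 * M1 ^ 2 - 2 * b6 * N1 * M1 ^ 3 - b8 * M1 ^ 4) -
      x1 * M1 * (4 * N1 ^ 3 + b2 * N1 ^ 2 * M1 + 2 * b4 * N1 * M1 ^ 2 + b6 * M1 ^ 3) = 0 := by
  subst h1
  linear_combination M1 ^ 4 * h2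

end Identities

/-! ### Relations satisfied by the `x`-coordinates of a `5`-torsion point -/

section Torsion

variable {k : Type*} [Field k] [DecidableEq k]

theorem t5_two_nsmul_ne_zero {V : Affine k} {P : V.Point} (hP0 : P ≠ 0) (hP : 5 • P = 0) :
    2 • P ≠ 0 := by
  intro h
  apply hP0
  have h5 : 5 • P = 2 • (2 • P) + P := by abel
  rw [h5, h, nsmul_zero, zero_add] at hP
  exact hP

theorem t5_four_nsmul {V : Affine k} {P : V.Point} (hP : 5 • P = 0) :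
    2 • (2 • P) = -P := by
  rw [eq_neg_iff_add_eq_zero, ← hP]
  abel

theorem t5_three_nsmul_ne_zero {V : Affine k} {P : V.Point} (hP0 : P ≠ 0) (hP : 5 • P = 0) :
    3 • P ≠ 0 := by
  intro h
  apply hP0
  have h6 : P = 2 • (3 • P) - 5 • P := by abel
  rw [h6, h, hP, nsmul_zero, sub_zero]

theorem five_torsion_rel {V : Affine k} {P : V.Point} (hP0 : P ≠ 0) (hP : 5 • P = 0) :
    xc P ≠ xc (2 • P) ∧ dupNum V (xc P) = xc (2 • P) * dupDen V (xc P) ∧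
      dupNum V (xc (2 • P)) = xc P * dupDen V (xc (2 • P)) := by
  have h2 : 2 • P ≠ 0 := t5_two_nsmul_ne_zero hP0 hP
  have h4 : 2 • (2 • P) = -P := t5_four_nsmul hP
  have h4' : 2 • (2 • P) ≠ 0 := by rw [h4]; exact neg_ne_zero.mpr hP0
  refine ⟨?_, (xc_two_nsmul hP0 h2).symm, ?_⟩
  · intro hx
    rcases eq_or_eq_neg_of_xc_eq hP0 h2 hx with h | h
    · apply hP0
      have h' : P + 0 = P + P := by rw [add_zero, ← two_nsmul]; exact h
      exact (add_left_cancel h').symm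
    · apply t5_three_nsmul_ne_zero hP0 hP
      have h3 : 3 • P = P + 2 • P := by abel
      rw [h3]
      nth_rewrite 1 [h]
      exact neg_add_cancel _
  · have h := xc_two_nsmul h2 h4'
    rw [h4, xc_neg] at h
    exact h.symm

end Torsion

section Aux

variable {R : Type*} [CommRing R]

theorem t5_aux1 (b2 b4 b6 x m : R) (hm : m = 4 * x ^ 3 + b2 * x ^ 2 + 2 * b4 * x + b6) :
    4 * (x * m) ^ 3 + b2 * (x * m) ^ 2 * m + 2 * b4 * (x * m) * m ^ 2 + b6 * m ^ 3 = m ^ 4 := by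
  subst hm
  ring

theorem t5_aux2 (b2 b4 b6 x2 m : R) :
    (4 * x2 ^ 3 + b2 * x2 ^ 2 + 2 * b4 * x2 + b6) * m ^ 3 =
      4 * (x2 * m) ^ 3 + b2 * (x2 * m) ^ 2 * m + 2 * b4 * (x2 * m) * m ^ 2 + b6 * m ^ 3 := by
  ring

theorem t5_aux3 (b2 b4 b6 b8 x1 x2 m : R) :
    m ^ 4 * ((x2 ^ 4 - b4 * x2 ^ 2 - 2 * b6 * x2 - b8) -
        x1 * (4 * x2 ^ 3 + b2 * x2 ^ 2 + 2 * b4 * x2 + b6)) =
      ((x2 * m) ^ 4 - b4 * (x2 * m) ^ 2 * m ^ 2 - 2 * b6 * (x2 * m) * m ^ 3 - b8 * m ^ 4) -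
        x1 * m * (4 * (x2 * m) ^ 3 + b2 * (x2 * m) ^ 2 * m + 2 * b4 * (x2 * m) * m ^ 2 +
          b6 * m ^ 3) := by
  ring

end Aux

section Finite

variable {k : Type*} [Field k]

/-- `dupNum` as a polynomial. -/
noncomputable def t5_polyN (V : WeierstrassCurve k) : k[X] :=
  X ^ 4 - C V.b₄ * X ^ 2 - C (2 * V.b₆) * X - C V.b₈

/-- `dupDen` as a polynomial. -/
noncomputable def t5_polyM (V : WeierstrassCurve k) : k[X] :=
  C 4 * X ^ 3 + C V.b₂ * X ^ 2 + C (2 * V.b₄) * X + C V.b₆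

/-- The polynomial (of degree 16) vanishing at the `x`-coordinates of the `5`-torsion points. -/
noncomputable def t5_poly (V : WeierstrassCurve k) : k[X] :=
  (t5_polyN V ^ 4 - C V.b₄ * t5_polyN V ^ 2 * t5_polyM V ^ 2 -
      C (2 * V.b₆) * t5_polyN V * t5_polyM V ^ 3 - C V.b₈ * t5_polyM V ^ 4) -
    X * t5_polyM V * (C 4 * t5_polyN V ^ 3 + C V.b₂ * t5_polyN V ^ 2 * t5_polyM V +
      C (2 * V.b₄) * t5_polyN V * t5_polyM V ^ 2 + C V.b₆ * t5_polyM V ^ 3)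

/-- The `5`-division polynomial `ψ₅ = pre4 * M ^ 2 - ψ₃ ^ 3`. -/
noncomputable def t5_polyPsi5 (V : WeierstrassCurve k) : k[X] :=
  (C 2 * X ^ 6 + C V.b₂ * X ^ 5 + C (5 * V.b₄) * X ^ 4 + C (10 * V.b₆) * X ^ 3 +
      C (10 * V.b₈) * X ^ 2 + C (V.b₂ * V.b₈ - V.b₄ * V.b₆) * X + C (V.b₄ * V.b₈ - V.b₆ ^ 2)) *
    t5_polyM V ^ 2 -
  (C 3 * X ^ 4 + C V.b₂ * X ^ 3 + C (3 * V.b₄) * X ^ 2 + C (3 * V.b₆) * X + C V.b₈) ^ 3

theorem t5_eval_polyN (V : WeierstrassCurve k) (x : k) : (t5_polyN V).eval x = dupNum V x := by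
  simp [t5_polyN, dupNum]

theorem t5_eval_polyM (V : WeierstrassCurve k) (x : k) : (t5_polyM V).eval x = dupDen V x := by
  simp [t5_polyM, dupDen]

theorem t5_eval_poly (V : WeierstrassCurve k) (x : k) : (t5_poly V).eval x =
    (dupNum V x ^ 4 - V.b₄ * dupNum V x ^ 2 * dupDen V x ^ 2 -
        2 * V.b₆ * dupNum V x * dupDen V x ^ 3 - V.b₈ * dupDen V x ^ 4) -
      x * dupDen V x * (4 * dupNum V x ^ 3 + V.b₂ * dupNum V x ^ 2 * dupDen V x +
        2 * V.b₄ * dupNum V x * dupDen V x ^ 2 + V.b₆ * dupDen V x ^ 3) := by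
  simp [t5_poly, t5_eval_polyN, t5_eval_polyM]

theorem t5_eval_polyPsi5 (V : WeierstrassCurve k) (x : k) : (t5_polyPsi5 V).eval x =
    t5_pre4 V x * dupDen V x ^ 2 - psi3 V x ^ 3 := by
  simp [t5_polyPsi5, t5_eval_polyM, t5_pre4, psi3]

theorem t5_natDegree_poly [CharZero k] (V : WeierstrassCurve k) : (t5_poly V).natDegree = 16 := by
  unfold t5_poly t5_polyN t5_polyM
  compute_degree!

theorem t5_natDegree_polyPsi5 [CharZero k] (V : WeierstrassCurve k) :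
    (t5_polyPsi5 V).natDegree = 12 := by
  unfold t5_polyPsi5 t5_polyM
  compute_degree!

theorem t5_poly_ne_zero [CharZero k] (V : WeierstrassCurve k) : t5_poly V ≠ 0 := by
  intro h
  have h16 := t5_natDegree_poly V
  rw [h, natDegree_zero] at h16
  exact absurd h16 (by norm_num)

theorem t5_polyPsi5_ne_zero [CharZero k] (V : WeierstrassCurve k) : t5_polyPsi5 V ≠ 0 := by
  intro h
  have h12 := t5_natDegree_polyPsi5 V
  rw [h, natDegree_zero] at h12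
  exact absurd h12 (by norm_num)

variable [DecidableEq k]

theorem t5_eval_xc {V : Affine k} {P : V.Point} (hP0 : P ≠ 0) (hP : 5 • P = 0) :
    (t5_poly V).eval (xc P) = 0 := by
  obtain ⟨-, h1, h2⟩ := five_torsion_rel hP0 hP
  rw [t5_eval_poly]
  exact t5_alg _ _ _ _ (xc P) (xc (2 • P)) _ _ h1 h2

theorem five_torsion_finite [CharZero k] (V : Affine k) (_hΔ : V.Δ ≠ 0) :
    {P : V.Point | 5 • P = 0}.Finite ∧ {P : V.Point | 5 • P = 0}.ncard ≤ 33 := by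
  classical
  set R : Finset k := (t5_poly V).roots.toFinset with hR
  have hRcard : R.card ≤ 16 := by
    calc R.card ≤ Multiset.card (t5_poly V).roots := Multiset.toFinset_card_le _
      _ ≤ (t5_poly V).natDegree := Polynomial.card_roots' _
      _ = 16 := t5_natDegree_poly V
  let f : k → V.Point := fun x => if h : ∃ P : V.Point, P ≠ 0 ∧ xc P = x then h.choose else 0
  set U : Finset V.Point := insert 0 (R.image f ∪ R.image (fun x => - f x)) with hU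
  have hsub : {P : V.Point | 5 • P = 0} ⊆ (U : Set V.Point) := by
    intro P hP
    have hP : 5 • P = 0 := hP
    rw [Finset.mem_coe, hU, Finset.mem_insert, Finset.mem_union, Finset.mem_image,
      Finset.mem_image]
    by_cases hP0 : P = 0
    · exact Or.inl hP0
    · right
      have hroot : xc P ∈ R := by
        rw [hR, Multiset.mem_toFinset, mem_roots (t5_poly_ne_zero V)]
        exact t5_eval_xc hP0 hP
      have hex : ∃ Q : V.Point, Q ≠ 0 ∧ xc Q = xc P := ⟨P, hP0, rfl⟩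
      have hf : f (xc P) = hex.choose := dif_pos hex
      obtain ⟨hQ0, hQx⟩ := hex.choose_spec
      rcases eq_or_eq_neg_of_xc_eq hP0 hQ0 hQx.symm with h | h
      · exact Or.inl ⟨xc P, hroot, by rw [hf]; exact h.symm⟩
      · exact Or.inr ⟨xc P, hroot, by rw [hf]; exact h.symm⟩
  have hUcard : U.card ≤ 33 := by
    have h1 : (R.image f).card ≤ 16 := Finset.card_image_le.trans hRcard
    have h2 : (R.image (fun x => - f x)).card ≤ 16 := Finset.card_image_le.trans hRcard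
    have h3 := Finset.card_union_le (R.image f) (R.image (fun x => - f x))
    have h4 := Finset.card_insert_le (0 : V.Point) (R.image f ∪ R.image (fun x => - f x))
    rw [hU]
    omega
  refine ⟨U.finite_toSet.subset hsub, ?_⟩
  calc {P : V.Point | 5 • P = 0}.ncard ≤ (U : Set V.Point).ncard :=
        Set.ncard_le_ncard hsub U.finite_toSet
    _ = U.card := Set.ncard_coe_finset U
    _ ≤ 33 := hUcard

theorem exists_five_torsion [IsAlgClosed k] [CharZero k] (V : Affine k) (hΔ : V.Δ ≠ 0) :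
    ∃ P : V.Point, P ≠ 0 ∧ 5 • P = 0 := by
  -- a root of `ψ₅`
  obtain ⟨x1, hx1⟩ : ∃ x, (t5_polyPsi5 V).IsRoot x := by
    apply IsAlgClosed.exists_root
    rw [degree_eq_natDegree (t5_polyPsi5_ne_zero V), t5_natDegree_polyPsi5]
    norm_num
  rw [IsRoot.def, t5_eval_polyPsi5] at hx1
  -- a point with this `x`-coordinate
  obtain ⟨s, hs⟩ := IsAlgClosed.exists_pow_nat_eq (dupDen V x1) (n := 2) (by norm_num)
  have heq : V.Equation x1 ((s - V.a₁ * x1 - V.a₃) / 2) := by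
    rw [Affine.equation_iff]
    simp only [dupDen, b₂, b₄, b₆] at hs
    linear_combination (1 / 4 : k) * hs
  have hns : V.Nonsingular x1 ((s - V.a₁ * x1 - V.a₃) / 2) :=
    (equation_iff_nonsingular_of_Δ_ne_zero hΔ).mp heq
  set P : V.Point := Point.some x1 _ hns with hPdef
  have hP0 : P ≠ 0 := Point.some_ne_zero _
  have hxP : xc P = x1 := xc_some hns
  -- `M(x₁) ≠ 0`
  have hM : dupDen V x1 ≠ 0 := by
    intro hM
    have hpsi : psi3 V x1 = 0 := by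
      rw [hM] at hx1
      have h : psi3 V x1 ^ 3 = 0 := by linear_combination -hx1
      exact (pow_eq_zero_iff (by norm_num)).mp h
    have hN : dupNum V x1 = 0 := by
      have h := psi3_eq V x1
      rw [hpsi, hM] at h
      linear_combination h
    apply hΔ
    rw [← t5_disc V x1, hM, hN]
    ring
  have h2P : 2 • P ≠ 0 := by
    intro h
    exact hM (by rw [← hxP]; exact (dupDen_eq_zero_iff hP0).mpr h)
  have hx2 : xc (2 • P) * dupDen V x1 = dupNum V x1 := by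
    have h := xc_two_nsmul hP0 h2P
    rwa [hxP] at h
  -- `ψ₃(x₁) ≠ 0`
  have hpsi : psi3 V x1 ≠ 0 := by
    intro hpsi
    have hpre : t5_pre4 V x1 = 0 := by
      rw [hpsi] at hx1
      have h : t5_pre4 V x1 * dupDen V x1 ^ 2 = 0 := by linear_combination hx1
      rcases mul_eq_zero.mp h with h | h
      · exact h
      · exact absurd ((pow_eq_zero_iff (by norm_num)).mp h) hM
    have hN : dupNum V x1 = x1 * dupDen V x1 := by
      have h := psi3_eq V x1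
      rw [hpsi] at h
      linear_combination h
    have h4 := t5_id4 V x1
    rw [hpre, hN, t5_aux1 V.b₂ V.b₄ V.b₆ x1 (dupDen V x1) rfl] at h4
    have h4' : dupDen V x1 ^ 4 = 0 := by rw [h4]; ring
    exact hM ((pow_eq_zero_iff (by norm_num)).mp h4')
  have hpre : t5_pre4 V x1 ≠ 0 := by
    intro h
    rw [h, zero_mul, zero_sub, neg_eq_zero] at hx1
    exact hpsi ((pow_eq_zero_iff (by norm_num)).mp hx1)
  -- `4 • P ≠ 0`
  have hM2 : dupDen V (xc (2 • P)) * dupDen V x1 ^ 3 = t5_pre4 V x1 ^ 2 := by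
    rw [← t5_id4 V x1, ← hx2]
    exact t5_aux2 _ _ _ _ _
  have hM2' : dupDen V (xc (2 • P)) ≠ 0 := by
    intro h
    rw [h, zero_mul] at hM2
    exact hpre ((pow_eq_zero_iff (by norm_num)).mp hM2.symm)
  have h4P : 2 • (2 • P) ≠ 0 := by
    intro h
    exact hM2' ((dupDen_eq_zero_iff h2P).mpr h)
  have hx4 : xc (2 • (2 • P)) * dupDen V (xc (2 • P)) = dupNum V (xc (2 • P)) :=
    xc_two_nsmul h2P h4P
  -- `x(4P) = x(P)`
  have hrel : dupNum V (xc (2 • P)) = x1 * dupDen V (xc (2 • P)) := by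
    have h5 := t5_id5 V x1
    rw [hx1, mul_zero, ← hx2] at h5
    have h5' : dupDen V x1 ^ 4 * (dupNum V (xc (2 • P)) - x1 * dupDen V (xc (2 • P))) = 0 := by
      rw [← h5]
      exact t5_aux3 _ _ _ _ _ _ _
    rcases mul_eq_zero.mp h5' with h | h
    · exact absurd ((pow_eq_zero_iff (by norm_num)).mp h) hM
    · exact sub_eq_zero.mp h
  have hx41 : xc (2 • (2 • P)) = xc P := by
    rw [hxP]
    have h : xc (2 • (2 • P)) * dupDen V (xc (2 • P)) = x1 * dupDen V (xc (2 • P)) := by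
      rw [hx4, hrel]
    exact mul_right_cancel₀ hM2' h
  rcases eq_or_eq_neg_of_xc_eq h4P hP0 hx41 with h | h
  · exfalso
    have h3 : 2 • P + P = 0 := by
      have h' : 2 • (2 • P) = (2 • P + P) + P := by abel
      rw [h'] at h
      exact add_right_cancel (b := P) (by rw [h, zero_add])
    have h2 : 2 • P = -P := eq_neg_of_add_eq_zero_left h3
    have hx21 : xc (2 • P) = x1 := by rw [h2, xc_neg, hxP]
    apply hpsi
    rw [psi3_eq, ← hx2, hx21]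
    ring
  · refine ⟨P, hP0, ?_⟩
    have h' : 5 • P = 2 • (2 • P) + P := by abel
    rw [h', h, neg_add_cancel]

end Finite

end Fermat.Agent.S51
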