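import Fermat.Agent.S51.Defs
import Fermat.Agent.S51.Dup
import Fermat.Agent.S51.Torsion3
import Fermat.Agent.S51.Torsion5
import Fermat.Agent.S51.Algebra
import Fermat.Agent.S51.GaloisDescent

set_option autoImplicit false

namespace Fermat.Agent.S51

open WeierstrassCurve WeierstrassCurve.Affine

/-! ### Linear algebra: a proper nonzero submodule of a small `ZMod p`-module is a line -/

theorem gal_line {p : ℕ} [Fact p.Prime] {T : Type*} [AddCommGroup T] [Module (ZMod p) T]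
    [Finite T] (hcard : Nat.card T < p ^ 3) (N : Submodule (ZMod p) T) (hN : N ≠ ⊤)
    {P : T} (hP : P ∈ N) (hP0 : P ≠ 0) {Q : T} (hQ : Q ∈ N) :
    ∃ c : ZMod p, Q = c • P := by
  have hp : p.Prime := Fact.out
  have : Module.Finite (ZMod p) T := Module.Finite.of_finite
  have h1 : Nat.card T = p ^ Module.finrank (ZMod p) T := by
    rw [Module.natCard_eq_pow_finrank (K := ZMod p), Nat.card_zmod]
  rw [h1] at hcard
  have h2 : Module.finrank (ZMod p) T < 3 := (Nat.pow_lt_pow_iff_right hp.one_lt).mp hcard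
  have h3 : Module.finrank (ZMod p) N < Module.finrank (ZMod p) T := Submodule.finrank_lt hN
  have hP' : (⟨P, hP⟩ : N) ≠ 0 := fun h => hP0 (congrArg Subtype.val h)
  have h4 : 0 < Module.finrank (ZMod p) N := Module.finrank_pos_iff_exists_ne_zero.mpr ⟨_, hP'⟩
  have h5 : Module.finrank (ZMod p) N = 1 := by omega
  obtain ⟨c, hc⟩ := (finrank_eq_one_iff_of_nonzero' (⟨P, hP⟩ : N) hP').mp h5 ⟨Q, hQ⟩
  exact ⟨c, (congrArg Subtype.val hc).symm⟩

/-! ### The Galois action on points of the base change to `AlgebraicClosure ℚ` -/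

/-- The base change to `AlgebraicClosure ℚ` of the rational curve attached to `W`. -/
noncomputable abbrev gal_V (W : WeierstrassCurve ℤ) : Affine (AlgebraicClosure ℚ) :=
  (W.map (Int.castRingHom ℚ))⁄(AlgebraicClosure ℚ)

theorem gal_V_Δ (W : WeierstrassCurve ℤ) (hΔ : W.Δ ≠ 0) : (gal_V W).Δ ≠ 0 := by
  have h1 : (gal_V W).Δ = algebraMap ℚ (AlgebraicClosure ℚ) ((W.Δ : ℤ) : ℚ) := by
    simp [gal_V, WeierstrassCurve.baseChange, WeierstrassCurve.map_Δ]
  rw [h1]
  simpa using hΔ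

/-- The `x`-coordinate is Galois equivariant. -/
theorem gal_xc_smul (W : WeierstrassCurve ℤ) (σ : AlgebraicClosure ℚ ≃ₐ[ℚ] AlgebraicClosure ℚ)
    (P : (gal_V W).Point) : xc (σ • P) = σ (xc P) := by
  cases P with
  | zero => exact (map_zero σ).symm
  | some x y h => rfl

theorem gal_smul_nsmul (W : WeierstrassCurve ℤ) (σ : AlgebraicClosure ℚ ≃ₐ[ℚ] AlgebraicClosure ℚ)
    (k : ℕ) (P : (gal_V W).Point) : σ • (k • P) = k • (σ • P) :=
  map_nsmul (Point.map σ.toAlgHom) k P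

theorem gal_smul_ne_zero (W : WeierstrassCurve ℤ) (σ : AlgebraicClosure ℚ ≃ₐ[ℚ] AlgebraicClosure ℚ)
    {P : (gal_V W).Point} (hP : P ≠ 0) : σ • P ≠ 0 := by
  intro h
  exact hP ((smul_eq_zero_iff_eq σ).mp h)

/-- A reducible mod `p` representation on a small `p`-torsion group has a stable line. -/
theorem gal_core (W : WeierstrassCurve ℤ) (p : ℕ) [Fact p.Prime]
    (hex : ∃ P : (gal_V W).Point, P ≠ 0 ∧ p • P = 0)
    (hfin : {P : (gal_V W).Point | p • P = 0}.Finite)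
    (hcard : {P : (gal_V W).Point | p • P = 0}.ncard < p ^ 3)
    (h : ¬ W.ModRepIsIrreducible p) :
    ∃ P₀ : (gal_V W).Point, P₀ ≠ 0 ∧ p • P₀ = 0 ∧
      ∀ σ : AlgebraicClosure ℚ ≃ₐ[ℚ] AlgebraicClosure ℚ, ∃ k : ℕ, k < p ∧ σ • P₀ = k • P₀ := by
  unfold WeierstrassCurve.ModRepIsIrreducible Affine.Point.GaloisRepIsIrreducible at h
  have hmem : ∀ P : (gal_V W).Point,
      P ∈ Submodule.torsionBy ℤ (gal_V W).Point p ↔ p • P = 0 := by
    intro P
    rw [Submodule.mem_torsionBy_iff, Nat.cast_smul_eq_nsmul]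
  have hset : ((Submodule.torsionBy ℤ (gal_V W).Point p : Submodule ℤ (gal_V W).Point) :
      Set (gal_V W).Point) = {P : (gal_V W).Point | p • P = 0} := Set.ext hmem
  have hnt : Nontrivial (Submodule.torsionBy ℤ (gal_V W).Point p) := by
    obtain ⟨P, hP0, hP⟩ := hex
    exact ⟨⟨⟨P, (hmem P).mpr hP⟩, 0, fun h => hP0 (congrArg Subtype.val h)⟩⟩
  have hfinT : Finite (Submodule.torsionBy ℤ (gal_V W).Point p) := by
    have : ((Submodule.torsionBy ℤ (gal_V W).Point p : Submodule ℤ (gal_V W).Point) :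
      Set (gal_V W).Point).Finite := hset ▸ hfin
    exact this.to_subtype
  have hcardT : Nat.card (Submodule.torsionBy ℤ (gal_V W).Point p) < p ^ 3 := by
    have : Nat.card (Submodule.torsionBy ℤ (gal_V W).Point p) =
        {P : (gal_V W).Point | p • P = 0}.ncard := by
      rw [← hset]; exact Nat.card_coe_set_eq _
    rw [this]; exact hcard
  push Not at h
  obtain ⟨N, hNst, hNbot, hNtop⟩ := h hnt
  obtain ⟨Q, hQN, hQ0⟩ := Submodule.exists_mem_ne_zero_of_ne_bot hNbot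
  refine ⟨(Q : (gal_V W).Point), fun h => hQ0 (Subtype.ext h), (hmem _).mp Q.2, ?_⟩
  intro σ
  obtain ⟨c, hc⟩ := gal_line hcardT N hNtop hQN hQ0 (hNst σ Q hQN)
  refine ⟨c.val, ZMod.val_lt c, ?_⟩
  have h1 : c • Q = c.val • Q := by
    conv_lhs => rw [← ZMod.natCast_zmod_val c]
    exact Nat.cast_smul_eq_nsmul (ZMod p) c.val Q
  have h2 := congrArg Subtype.val (hc.trans h1)
  have h3 : ((σ • Q : Submodule.torsionBy ℤ (gal_V W).Point p) : (gal_V W).Point) =
      c.val • (Q : (gal_V W).Point) := by simpa using h2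
  exact h3

/-! ### The two consequences of reducibility -/

/-- If the mod `3` representation is reducible, the `3`-division polynomial has a rational
root. -/
theorem exists_rat_psi3 (W : WeierstrassCurve ℤ) (hΔ : W.Δ ≠ 0) (h : ¬ W.ModRepIsIrreducible 3) :
    ∃ x : ℚ, psi3 (W.map (Int.castRingHom ℚ)) x = 0 := by
  have : Fact (Nat.Prime 3) := ⟨by norm_num⟩
  have hV := gal_V_Δ W hΔ
  have hfin := three_torsion_finite (gal_V W) hV
  obtain ⟨P₀, hP0, h3, hσ⟩ := gal_core W 3 (exists_three_torsion (gal_V W) hV) hfin.1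
    (lt_of_le_of_lt hfin.2 (by norm_num)) h
  refine rat_psi3_of_fixed (W.map (Int.castRingHom ℚ)) (xc P₀)
    (psi3_xc_of_three_nsmul hP0 h3) ?_
  intro σ
  rw [← gal_xc_smul]
  obtain ⟨k, hk, hkP⟩ := hσ σ
  have h2 : (2 : ℕ) • P₀ = -P₀ := eq_neg_of_add_eq_zero_left (by rw [← succ_nsmul]; exact h3)
  interval_cases k
  · exact absurd (by simpa using hkP) (gal_smul_ne_zero W σ hP0)
  · rw [hkP, one_nsmul]
  · rw [hkP, h2, xc_neg]

/-- If the mod `5` representation is reducible, the quantities `ρ = (x₁ + x₂) / 2` and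
`r = ((x₁ - x₂) / 2) ^ 2` attached to a stable line `{0, ±P, ±2P}` are rational. -/
theorem exists_rat_five (W : WeierstrassCurve ℤ) (hΔ : W.Δ ≠ 0) (h : ¬ W.ModRepIsIrreducible 5) :
    ∃ ρ r : ℚ, r ≠ 0 ∧
      5 * r ^ 2 + shB4 (W.map (Int.castRingHom ℚ)) ρ * r - shB8 (W.map (Int.castRingHom ℚ)) ρ = 0 ∧
      shB2 (W.map (Int.castRingHom ℚ)) ρ * r = shB6 (W.map (Int.castRingHom ℚ)) ρ := by
  have : Fact (Nat.Prime 5) := ⟨by norm_num⟩
  have hV := gal_V_Δ W hΔ
  have hfin := five_torsion_finite (gal_V W) hV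
  obtain ⟨P₀, hP0, h5, hσ⟩ := gal_core W 5 (exists_five_torsion (gal_V W) hV) hfin.1
    (lt_of_le_of_lt hfin.2 (by norm_num)) h
  obtain ⟨hne, h1, h2⟩ := five_torsion_rel hP0 h5
  refine rat_five_of_swap (W.map (Int.castRingHom ℚ)) (xc P₀) (xc (2 • P₀)) hne h1 h2 ?_
  intro σ
  rw [← gal_xc_smul, ← gal_xc_smul, gal_smul_nsmul]
  obtain ⟨k, hk, hkP⟩ := hσ σ
  have h4 : (4 : ℕ) • P₀ = -P₀ := eq_neg_of_add_eq_zero_left (by rw [← succ_nsmul]; exact h5)
  have h3 : (3 : ℕ) • P₀ = -((2 : ℕ) • P₀) :=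
    eq_neg_of_add_eq_zero_left (by rw [← add_nsmul]; exact h5)
  have h6 : (6 : ℕ) • P₀ = P₀ := by
    have : (6 : ℕ) • P₀ = (5 : ℕ) • P₀ + P₀ := succ_nsmul P₀ 5
    rw [this, h5, zero_add]
  rw [hkP]
  interval_cases k
  · exact absurd (by simpa using hkP) (gal_smul_ne_zero W σ hP0)
  · left
    rw [one_nsmul]
    exact ⟨rfl, rfl⟩
  · right
    refine ⟨rfl, ?_⟩
    rw [← mul_nsmul', show 2 * 2 = 4 from rfl, h4, xc_neg]
  · right
    refine ⟨by rw [h3, xc_neg], ?_⟩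
    rw [← mul_nsmul', show 2 * 3 = 6 from rfl, h6]
  · left
    refine ⟨by rw [h4, xc_neg], ?_⟩
    rw [h4, neg_nsmul, xc_neg]

end Fermat.Agent.S51
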