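import Fermat.Agent.S51.Descent

set_option autoImplicit false

namespace Fermat.Agent.S51

theorem x015_sq_ne_prime (p : ℕ) (hp : p.Prime) (q : ℚ) : q ^ 2 ≠ (p : ℚ) := by
  intro hq
  have h1 : Irrational (√(p : ℝ)) := hp.irrational_sqrt
  have h2 : √(p : ℝ) = |(q : ℝ)| := by
    rw [← Real.sqrt_sq_eq_abs]
    congr 1
    exact_mod_cast hq.symm
  rw [h2] at h1
  exact h1 ⟨|q|, by push_cast; rfl⟩

theorem x015_rel_of_key (A B h : ℚ) (hB : B ≠ 0)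
    (key : A * B * (3 * A + (52 + 8 * h) * B) ^ 2
      = (A + 9 * B) * (A - 16 * B) * (A - 4 * B) ^ 2) :
    ∃ x : ℚ, x * (3 * x + 52 + 8 * h) ^ 2 = (x + 9) * (x - 16) * (x - 4) ^ 2 := by
  refine ⟨A / B, ?_⟩
  have hx : A / B * B = A := div_mul_cancel₀ A hB
  apply mul_left_cancel₀ (pow_ne_zero 4 hB)
  calc B ^ 4 * (A / B * (3 * (A / B) + 52 + 8 * h) ^ 2)
      = (A / B * B) * B * (3 * (A / B * B) + (52 + 8 * h) * B) ^ 2 := by ring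
    _ = A * B * (3 * A + (52 + 8 * h) * B) ^ 2 := by rw [hx]
    _ = (A + 9 * B) * (A - 16 * B) * (A - 4 * B) ^ 2 := key
    _ = (A / B * B + 9 * B) * (A / B * B - 16 * B) * (A / B * B - 4 * B) ^ 2 := by rw [hx]
    _ = B ^ 4 * ((A / B + 9) * (A / B - 16) * (A / B - 4) ^ 2) := by ring

theorem x015_key1 (u h : ℚ)
    (hF : (u + 27) * (u + 3) ^ 3 * h = (h ^ 2 + 10 * h + 5) ^ 3 * u) :
    (108 + 108 * h - 56 * u - 136 * u * h - 16 * u * h ^ 2 - 4 * u ^ 2 - 4 * u ^ 2 * h) * (3 - 117 * h - 42 * h ^ 2 - 3 * h ^ 3 + 19 * u - 4 * u * h - u * h ^ 2 + u ^ 2)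
        * (3 * (108 + 108 * h - 56 * u - 136 * u * h - 16 * u * h ^ 2 - 4 * u ^ 2 - 4 * u ^ 2 * h) + (52 + 8 * h) * (3 - 117 * h - 42 * h ^ 2 - 3 * h ^ 3 + 19 * u - 4 * u * h - u * h ^ 2 + u ^ 2)) ^ 2
      = ((108 + 108 * h - 56 * u - 136 * u * h - 16 * u * h ^ 2 - 4 * u ^ 2 - 4 * u ^ 2 * h) + 9 * (3 - 117 * h - 42 * h ^ 2 - 3 * h ^ 3 + 19 * u - 4 * u * h - u * h ^ 2 + u ^ 2)) * ((108 + 108 * h - 56 * u - 136 * u * h - 16 * u * h ^ 2 - 4 * u ^ 2 - 4 * u ^ 2 * h) - 16 * (3 - 117 * h - 42 * h ^ 2 - 3 * h ^ 3 + 19 * u - 4 * u * h - u * h ^ 2 + u ^ 2))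
        * ((108 + 108 * h - 56 * u - 136 * u * h - 16 * u * h ^ 2 - 4 * u ^ 2 - 4 * u ^ 2 * h) - 4 * (3 - 117 * h - 42 * h ^ 2 - 3 * h ^ 3 + 19 * u - 4 * u * h - u * h ^ 2 + u ^ 2)) ^ 2 := by
  linear_combination (-10229760 + 87664896 * h - 177596928 * h ^ 2 - 200620800 * h ^ 3 - 72175104 * h ^ 4 - 11895552 * h ^ 5 - 926208 * h ^ 6 - 27648 * h ^ 7 - 5667840 * u + 47278080 * u * h - 34594560 * u * h ^ 2 - 35251200 * u * h ^ 3 - 9082368 * u * h ^ 4 - 940032 * u * h ^ 5 - 34560 * u * h ^ 6 - 1128960 * u ^ 2 + 2260224 * u ^ 2 * h - 4091904 * u ^ 2 * h ^ 2 - 2202624 * u ^ 2 * h ^ 3 - 336384 * u ^ 2 * h ^ 4 - 16128 * u ^ 2 * h ^ 5 - 93440 * u ^ 3 - 43008 * u ^ 3 * h - 171520 * u ^ 3 * h ^ 2 - 48128 * u ^ 3 * h ^ 3 - 3328 * u ^ 3 * h ^ 4 - 2560 * u ^ 4 - 2048 * u ^ 4 * h - 2048 * u ^ 4 * h ^ 2 - 256 * u ^ 4 * h ^ 3) * hF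

theorem x015_key2 (u h : ℚ)
    (hF : (u + 27) * (u + 3) ^ 3 * h = (h ^ 2 + 10 * h + 5) ^ 3 * u) :
    (108 - 24 * u - 188 * u * h - 64 * u * h ^ 2 - 4 * u * h ^ 3 - 16 * u ^ 2 * h - 4 * u ^ 2 * h ^ 2) * (3 - 39 * h - 3 * h ^ 2 + 6 * u - 5 * u * h - 10 * u * h ^ 2 - u * h ^ 3 + u ^ 2 * h)
        * (3 * (108 - 24 * u - 188 * u * h - 64 * u * h ^ 2 - 4 * u * h ^ 3 - 16 * u ^ 2 * h - 4 * u ^ 2 * h ^ 2) + (52 + 8 * h) * (3 - 39 * h - 3 * h ^ 2 + 6 * u - 5 * u * h - 10 * u * h ^ 2 - u * h ^ 3 + u ^ 2 * h)) ^ 2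
      = ((108 - 24 * u - 188 * u * h - 64 * u * h ^ 2 - 4 * u * h ^ 3 - 16 * u ^ 2 * h - 4 * u ^ 2 * h ^ 2) + 9 * (3 - 39 * h - 3 * h ^ 2 + 6 * u - 5 * u * h - 10 * u * h ^ 2 - u * h ^ 3 + u ^ 2 * h)) * ((108 - 24 * u - 188 * u * h - 64 * u * h ^ 2 - 4 * u * h ^ 3 - 16 * u ^ 2 * h - 4 * u ^ 2 * h ^ 2) - 16 * (3 - 39 * h - 3 * h ^ 2 + 6 * u - 5 * u * h - 10 * u * h ^ 2 - u * h ^ 3 + u ^ 2 * h))
        * ((108 - 24 * u - 188 * u * h - 64 * u * h ^ 2 - 4 * u * h ^ 3 - 16 * u ^ 2 * h - 4 * u ^ 2 * h ^ 2) - 4 * (3 - 39 * h - 3 * h ^ 2 + 6 * u - 5 * u * h - 10 * u * h ^ 2 - u * h ^ 3 + u ^ 2 * h)) ^ 2 := by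
  linear_combination (-3317760 + 12413952 * h - 12054528 * h ^ 2 - 3248640 * h ^ 3 - 262656 * h ^ 4 - 6912 * h ^ 5 + 9068544 * u * h - 8743680 * u * h ^ 2 - 13215744 * u * h ^ 3 - 3027456 * u * h ^ 4 - 248832 * u * h ^ 5 - 6912 * u * h ^ 6 - 4824576 * u ^ 2 * h ^ 2 - 9402624 * u ^ 2 * h ^ 3 - 4856832 * u ^ 2 * h ^ 4 - 949248 * u ^ 2 * h ^ 5 - 78336 * u ^ 2 * h ^ 6 - 2304 * u ^ 2 * h ^ 7 - 414720 * u ^ 3 * h ^ 2 - 1941504 * u ^ 3 * h ^ 3 - 1718528 * u ^ 3 * h ^ 4 - 599040 * u ^ 3 * h ^ 5 - 100864 * u ^ 3 * h ^ 6 - 8192 * u ^ 3 * h ^ 7 - 256 * u ^ 3 * h ^ 8 - 89856 * u ^ 4 * h ^ 3 - 97792 * u ^ 4 * h ^ 4 - 35072 * u ^ 4 * h ^ 5 - 5120 * u ^ 4 * h ^ 6 - 256 * u ^ 4 * h ^ 7) * hF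

theorem x015_base (u h : ℚ) (h1 : 3 - 117 * h - 42 * h ^ 2 - 3 * h ^ 3 + 19 * u - 4 * u * h - u * h ^ 2 + u ^ 2 = 0) (h2 : 3 - 39 * h - 3 * h ^ 2 + 6 * u - 5 * u * h - 10 * u * h ^ 2 - u * h ^ 3 + u ^ 2 * h = 0) : False := by
  have hR : (h ^ 2 + 10 * h + 5) ^ 2 * (h ^ 2 + 4 * h - 1) ^ 2 = 0 := by
    linear_combination
      (-(1 : ℚ) / 9) * ((6 - 24 * h - 6 * h ^ 2) ^ 2
        + h * ((6 - 24 * h - 6 * h ^ 2) * u - (3 - 42 * h + 114 * h ^ 2 + 42 * h ^ 3 + 3 * h ^ 4)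
          + (19 - 4 * h - h ^ 2) * (6 - 24 * h - 6 * h ^ 2))) * h1
      + ((1 : ℚ) / 9) * ((6 - 24 * h - 6 * h ^ 2) * u
          - (3 - 42 * h + 114 * h ^ 2 + 42 * h ^ 3 + 3 * h ^ 4)
          + (19 - 4 * h - h ^ 2) * (6 - 24 * h - 6 * h ^ 2)) * h2
  rcases mul_eq_zero.mp hR with h3 | h3
  · have h4 : h ^ 2 + 10 * h + 5 = 0 := by simpa using h3
    have h5 : ((h + 5) / 2) ^ 2 = ((5 : ℕ) : ℚ) := by push_cast; linear_combination h4 / 4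
    exact x015_sq_ne_prime 5 (by norm_num) _ h5
  · have h4 : h ^ 2 + 4 * h - 1 = 0 := by simpa using h3
    have h5 : (h + 2) ^ 2 = ((5 : ℕ) : ℚ) := by push_cast; linear_combination h4
    exact x015_sq_ne_prime 5 (by norm_num) _ h5

theorem x015_exists_x (u h : ℚ)
    (hF : (u + 27) * (u + 3) ^ 3 * h = (h ^ 2 + 10 * h + 5) ^ 3 * u) :
    ∃ x : ℚ, x * (3 * x + 52 + 8 * h) ^ 2 = (x + 9) * (x - 16) * (x - 4) ^ 2 := by
  by_cases h1 : 3 - 117 * h - 42 * h ^ 2 - 3 * h ^ 3 + 19 * u - 4 * u * h - u * h ^ 2 + u ^ 2 = 0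
  · by_cases h2 : 3 - 39 * h - 3 * h ^ 2 + 6 * u - 5 * u * h - 10 * u * h ^ 2 - u * h ^ 3 + u ^ 2 * h = 0
    · exact (x015_base u h h1 h2).elim
    · exact x015_rel_of_key _ _ h h2 (x015_key2 u h hF)
  · exact x015_rel_of_key _ _ h h1 (x015_key1 u h hF)

theorem x015_not_minus_eight (u : ℚ)
    (hF : (u + 27) * (u + 3) ^ 3 * (-8) = ((-8 : ℚ) ^ 2 + 10 * (-8) + 5) ^ 3 * u) : False := by
  have h0 : (2 * u ^ 2 + 5 * u + 8) * (4 * u ^ 2 + 134 * u + 729) = 0 := by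
    linear_combination (-1 : ℚ) * hF
  rcases mul_eq_zero.mp h0 with h1 | h1
  · nlinarith [sq_nonneg (4 * u + 5)]
  · have h5 : ((4 * u + 67) / 11) ^ 2 = ((13 : ℕ) : ℚ) := by
      push_cast; linear_combination h1 * (4 / 121)
    exact x015_sq_ne_prime 13 (by norm_num) _ h5

theorem h_values (u h : ℚ) (_hu : u ≠ 0) (hh : h ≠ 0)
    (hF : (u + 27) * (u + 3) ^ 3 * h = (h ^ 2 + 10 * h + 5) ^ 3 * u) :
    h = -10 ∨ h = -25 / 2 ∨ h = -40 ∨ h = -25 / 8 := by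
  obtain ⟨x, hx⟩ := x015_exists_x u h hF
  by_cases hx4 : x = 4
  · subst hx4
    have h8 : h = -8 := by
      have h9 : (64 + 8 * h) ^ 2 = 0 := by linear_combination hx / 4
      have h10 : 64 + 8 * h = 0 := by simpa using h9
      linarith
    subst h8
    exact (x015_not_minus_eight u hF).elim
  · have hx4' : x - 4 ≠ 0 := sub_ne_zero.mpr hx4
    have hy : (x * (8 * h + 3 * x + 52) / (x - 4)) ^ 2 = x * (x + 9) * (x - 16) := by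
      rw [div_pow, div_eq_iff (pow_ne_zero 2 hx4')]
      linear_combination x * hx
    rcases points_W x _ hy with rfl | rfl | rfl | rfl | rfl
    · norm_num at hx
    · right; right; right
      have h9 : (25 + 8 * h) ^ 2 = 0 := by linear_combination hx / (-9)
      have h10 : 25 + 8 * h = 0 := by simpa using h9
      linarith
    · right; left
      have h9 : (100 + 8 * h) ^ 2 = 0 := by linear_combination hx / 16
      have h10 : 100 + 8 * h = 0 := by simpa using h9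
      linarith
    · left
      have h9 : h * (h + 10) = 0 := by linear_combination hx / (-256)
      rcases mul_eq_zero.mp h9 with h10 | h10
      · exact (hh h10).elim
      · linarith
    · right; right; left
      have h9 : h * (h + 40) = 0 := by linear_combination hx / 2304
      rcases mul_eq_zero.mp h9 with h10 | h10
      · exact (hh h10).elim
      · linarith

end Fermat.Agent.S51
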