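import Mathlib
import Fermat.Prelude.Def_FLTPrelim_GaloisRep
import Fermat.Prelude.Def_FLTPrelim_Modularity
import Fermat.Prelude.Def_FLTPrelim_ModularRep

set_option autoImplicit false

namespace Fermat.Agent.S51

open WeierstrassCurve

section Defs

variable {k : Type*} [CommRing k]

/-- The `x`-coordinate of an affine point, with junk value `0` at the point at infinity. -/
def xc {V : Affine k} : V.Point → k
  | .zero => 0
  | .some x _ _ => x

/-- Numerator of the duplication formula for `x`-coordinates. -/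
def dupNum (V : WeierstrassCurve k) (x : k) : k :=
  x ^ 4 - V.b₄ * x ^ 2 - 2 * V.b₆ * x - V.b₈

/-- Denominator of the duplication formula: `4x³ + b₂x² + 2b₄x + b₆`. -/
def dupDen (V : WeierstrassCurve k) (x : k) : k :=
  4 * x ^ 3 + V.b₂ * x ^ 2 + 2 * V.b₄ * x + V.b₆

/-- The `3`-division polynomial as a function. -/
def psi3 (V : WeierstrassCurve k) (x : k) : k :=
  3 * x ^ 4 + V.b₂ * x ^ 3 + 3 * V.b₄ * x ^ 2 + 3 * V.b₆ * x + V.b₈

/-- `b₂` of the curve translated by `x ↦ x + ρ`. -/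
def shB2 (V : WeierstrassCurve k) (ρ : k) : k := V.b₂ + 12 * ρ

/-- `b₄` of the curve translated by `x ↦ x + ρ`. -/
def shB4 (V : WeierstrassCurve k) (ρ : k) : k := V.b₄ + ρ * V.b₂ + 6 * ρ ^ 2

/-- `b₆` of the curve translated by `x ↦ x + ρ`. -/
def shB6 (V : WeierstrassCurve k) (ρ : k) : k :=
  V.b₆ + 2 * ρ * V.b₄ + ρ ^ 2 * V.b₂ + 4 * ρ ^ 3

/-- `b₈` of the curve translated by `x ↦ x + ρ`. -/
def shB8 (V : WeierstrassCurve k) (ρ : k) : k :=
  V.b₈ + 3 * ρ * V.b₆ + 3 * ρ ^ 2 * V.b₄ + ρ ^ 3 * V.b₂ + 3 * ρ ^ 4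

end Defs

end Fermat.Agent.S51
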