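import Mathlib

set_option autoImplicit false

namespace Fermat.Agent.S51

/-- Coprimality from the absence of a common natural prime divisor. -/
theorem isCoprime_of_forall_prime {x y : ℤ}
    (H : ∀ p : ℕ, p.Prime → (p : ℤ) ∣ x → (p : ℤ) ∣ y → False) : IsCoprime x y := by
  rw [Int.isCoprime_iff_gcd_eq_one]
  by_contra h
  obtain ⟨p, hp, hpd⟩ := Nat.exists_prime_and_dvd h
  exact H p hp ((Int.natCast_dvd_natCast.mpr hpd).trans (Int.gcd_dvd_left _ _))
    ((Int.natCast_dvd_natCast.mpr hpd).trans (Int.gcd_dvd_right _ _))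

theorem not_common_prime {a e : ℤ} (h : IsCoprime a e) {p : ℕ} (hp : p.Prime)
    (h1 : (p : ℤ) ∣ a) (h2 : (p : ℤ) ∣ e) : False := by
  have hu := h.isUnit_of_dvd' h1 h2
  rw [Int.isUnit_iff] at hu
  have := hp.one_lt
  omega

theorem sq_of_coprime_mul {a b c : ℤ} (h : IsCoprime a b) (heq : a * b = c ^ 2) (ha : 0 < a) :
    ∃ u : ℤ, a = u ^ 2 := by
  obtain ⟨u, hu | hu⟩ := Int.sq_of_isCoprime h heq
  · exact ⟨u, hu⟩
  · exfalso
    have := sq_nonneg u
    linarith

theorem pos_of_mul_pos_of_add_pos {a b : ℤ} (h : 0 < a * b) (hs : 0 < a + b) : 0 < a ∧ 0 < b := by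
  rcases pos_and_pos_or_neg_and_neg_of_mul_pos h with h' | h'
  · exact h'
  · exfalso; linarith [h'.1, h'.2]

/-- The algebraic heart of the descent. -/
theorem core {P Q R S w : ℤ} (hP : 0 < P) (hQ : 0 < Q) (hR : 0 < R)
    (hPQ : P * Q = w ^ 2) (hRS : R * S = 81 * w ^ 2) (hcPQ : IsCoprime P Q)
    (hcRS : IsCoprime R S) (hsum : P + Q = R + S) (k : ℤ) (hM : R - Q = k ^ 2) :
    ∃ r q t : ℤ, R = r ^ 2 ∧ Q = q ^ 2 ∧ r ^ 2 - q ^ 2 = k ^ 2 ∧ r ^ 2 - 81 * q ^ 2 = t ^ 2 := by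
  obtain ⟨p, hp⟩ := sq_of_coprime_mul hcPQ hPQ hP
  obtain ⟨q, hq⟩ := sq_of_coprime_mul hcPQ.symm (by rw [mul_comm]; exact hPQ) hQ
  obtain ⟨r, hr⟩ := sq_of_coprime_mul hcRS (c := 9 * w) (by rw [hRS]; ring) hR
  have hp0 : p ≠ 0 := by
    rintro rfl
    rw [hp] at hP
    norm_num at hP
  have hkey : p ^ 2 * (r ^ 2 - 81 * q ^ 2) = (r * k) ^ 2 := by
    have hS : S = P + Q - R := by linarith
    rw [hS] at hRS
    rw [← hp, ← hr, ← hq]
    have hM' : k ^ 2 = R - Q := hM.symm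
    rw [mul_pow, hM', ← hr]
    linear_combination (-81 : ℤ) * hPQ + hRS
  have hdvd : p ∣ r * k := by
    have : p ^ 2 ∣ (r * k) ^ 2 := ⟨_, hkey.symm⟩
    exact (Int.pow_dvd_pow_iff two_ne_zero).mp this
  obtain ⟨t, ht⟩ := hdvd
  refine ⟨r, q, t, hr, hq, ?_, ?_⟩
  · rw [← hr, ← hq]; exact hM
  · have h2 : p ^ 2 * (r ^ 2 - 81 * q ^ 2) = p ^ 2 * t ^ 2 := by
      rw [hkey, ht]; ring
    exact mul_left_cancel₀ (pow_ne_zero 2 hp0) h2

/-- Coprime integers with product `5 w²`: one of them is plus or minus a square. -/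
theorem sq_or_of_mul_eq_five {U V w : ℤ} (hc : IsCoprime U V) (h : U * V = 5 * w ^ 2) :
    (∃ k : ℤ, U = k ^ 2) ∨ (∃ k : ℤ, U = -k ^ 2) ∨ (∃ k : ℤ, V = k ^ 2) ∨ (∃ k : ℤ, V = -k ^ 2) := by
  have h5 : Prime (5 : ℤ) := Int.prime_iff_natAbs_prime.mpr (by norm_num)
  have hdvd : (5 : ℤ) ∣ U * V := ⟨w ^ 2, h⟩
  rcases h5.dvd_or_dvd hdvd with ⟨U', hU⟩ | ⟨V', hV⟩
  · have hc' : IsCoprime U' V := by
      rw [hU] at hc
      exact hc.of_mul_left_right
    have heq : V * U' = w ^ 2 := by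
      have : 5 * (V * U') = 5 * w ^ 2 := by rw [← h, hU]; ring
      exact mul_left_cancel₀ (by norm_num) this
    obtain ⟨k, hk | hk⟩ := Int.sq_of_isCoprime hc'.symm heq
    · exact Or.inr (Or.inr (Or.inl ⟨k, hk⟩))
    · exact Or.inr (Or.inr (Or.inr ⟨k, hk⟩))
  · have hc' : IsCoprime U V' := by
      rw [hV] at hc
      exact hc.of_mul_right_right
    have heq : U * V' = w ^ 2 := by
      have : 5 * (U * V') = 5 * w ^ 2 := by rw [← h, hV]; ring
      exact mul_left_cancel₀ (by norm_num) this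
    obtain ⟨k, hk | hk⟩ := Int.sq_of_isCoprime hc' heq
    · exact Or.inl ⟨k, hk⟩
    · exact Or.inr (Or.inl ⟨k, hk⟩)

theorem sq_mod_four (x : ℤ) : x ^ 2 % 4 = 0 ∨ x ^ 2 % 4 = 1 := by
  rcases Int.even_or_odd x with ⟨y, hy⟩ | h
  · left
    have : x ^ 2 = 4 * y ^ 2 := by rw [hy]; ring
    omega
  · right
    exact Int.sq_mod_four_eq_one_of_odd h

theorem sq_mod_three (x : ℤ) : (x ^ 2 % 3 = 0 ∧ (3 : ℤ) ∣ x) ∨ (x ^ 2 % 3 = 1 ∧ ¬ (3 : ℤ) ∣ x) := by
  have h : x % 3 = 0 ∨ x % 3 = 1 ∨ x % 3 = 2 := by omega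
  rcases h with h | h | h
  · left
    obtain ⟨y, hy⟩ : (3 : ℤ) ∣ x := Int.dvd_of_emod_eq_zero h
    refine ⟨?_, ⟨y, hy⟩⟩
    have : x ^ 2 = 3 * (3 * y ^ 2) := by rw [hy]; ring
    omega
  · right
    refine ⟨?_, fun hd => by omega⟩
    have : x ^ 2 = 3 * (3 * (x / 3) ^ 2 + 2 * (x / 3)) + 1 := by
      have hx : x = 3 * (x / 3) + 1 := by omega
      nth_rewrite 1 [hx]
      ring
    omega
  · right
    refine ⟨?_, fun hd => by omega⟩
    have : x ^ 2 = 3 * (3 * (x / 3) ^ 2 + 4 * (x / 3) + 1) + 1 := by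
      have hx : x = 3 * (x / 3) + 2 := by omega
      nth_rewrite 1 [hx]
      ring
    omega

theorem odd_of_coprime {A e B : ℤ} (hcop : IsCoprime A e) (h1 : A ^ 2 - e ^ 2 = B ^ 2) :
    Odd A := by
  by_contra hA
  rw [Int.not_odd_iff_even] at hA
  have he : Odd e := by
    by_contra he
    rw [Int.not_odd_iff_even] at he
    have h2A : (2 : ℤ) ∣ A := even_iff_two_dvd.mp hA
    have h2e : (2 : ℤ) ∣ e := even_iff_two_dvd.mp he
    exact not_common_prime hcop Nat.prime_two (by exact_mod_cast h2A) (by exact_mod_cast h2e)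
  obtain ⟨a, ha⟩ := hA
  have hA4 : A ^ 2 % 4 = 0 := by
    have : A ^ 2 = 4 * a ^ 2 := by rw [ha]; ring
    omega
  have he4 := Int.sq_mod_four_eq_one_of_odd he
  have hB4 := sq_mod_four B
  omega

theorem three_not_dvd_of_coprime {A e B : ℤ} (hcop : IsCoprime A e)
    (h1 : A ^ 2 - e ^ 2 = B ^ 2) : ¬ (3 : ℤ) ∣ A := by
  intro h3
  have hA := sq_mod_three A
  have he := sq_mod_three e
  have hB := sq_mod_three B
  have h3e : (3 : ℤ) ∣ e := by
    rcases hA with ⟨hA0, _⟩ | ⟨_, hA1⟩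
    · rcases he with ⟨_, he0⟩ | ⟨he1, _⟩
      · exact he0
      · exfalso
        rcases hB with ⟨hB0, _⟩ | ⟨hB1, _⟩ <;> omega
    · exact absurd h3 hA1
  exact not_common_prime hcop Nat.prime_three (by exact_mod_cast h3) (by exact_mod_cast h3e)

theorem eq_two_of_dvd_two {p : ℕ} (hp : p.Prime) (h : (p : ℤ) ∣ 2) : p = 2 := by
  have : p ∣ 2 := by exact_mod_cast h
  exact (Nat.prime_dvd_prime_iff_eq hp Nat.prime_two).mp this

theorem eq_three_of_dvd_81 {p : ℕ} (hp : p.Prime) (h : (p : ℤ) ∣ 81) : p = 3 := by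
  have hpZ : Prime (p : ℤ) := Nat.prime_iff_prime_int.mp hp
  have h3 : (p : ℤ) ∣ 3 := by
    have : (p : ℤ) ∣ 3 ^ 4 := by norm_num; exact h
    exact hpZ.dvd_of_dvd_pow this
  have : p ∣ 3 := by exact_mod_cast h3
  exact (Nat.prime_dvd_prime_iff_eq hp Nat.prime_three).mp this

theorem eq_five_of_dvd_five {p : ℕ} (hp : p.Prime) (h : (p : ℤ) ∣ 5) : p = 5 := by
  have : p ∣ 5 := by exact_mod_cast h
  exact (Nat.prime_dvd_prime_iff_eq hp Nat.prime_five).mp this

/-- The descent step when `e` is odd, after the sign normalisation `B + C = 4 k²`. -/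
theorem step_odd {A e B C k : ℤ} (hA : 0 < A) (he0 : e ≠ 0) (hcop : IsCoprime A e) (he : Odd e)
    (h1 : A ^ 2 - e ^ 2 = B ^ 2) (h2 : A ^ 2 - 81 * e ^ 2 = C ^ 2) (hk : B + C = 4 * k ^ 2) :
    ∃ r q s t : ℤ, |r| < A ∧ q ≠ 0 ∧ r ^ 2 - q ^ 2 = s ^ 2 ∧ r ^ 2 - 81 * q ^ 2 = t ^ 2 := by
  have h3 := three_not_dvd_of_coprime hcop h1
  have he2 : 0 < e ^ 2 := by positivity
  have hPQ : (A + B) * (A - B) = e ^ 2 := by linear_combination h1
  have hRS : (A + C) * (A - C) = 81 * e ^ 2 := by linear_combination h2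
  obtain ⟨hP, hQ⟩ := pos_of_mul_pos_of_add_pos (a := A + B) (b := A - B)
    (by rw [hPQ]; exact he2) (by linarith)
  obtain ⟨hR, hS⟩ := pos_of_mul_pos_of_add_pos (a := A + C) (b := A - C)
    (by rw [hRS]; positivity) (by linarith)
  have hne2 : ¬ (2 : ℤ) ∣ e := by
    rw [← even_iff_two_dvd, Int.not_even_iff_odd]; exact he
  have hcPQ : IsCoprime (A + B) (A - B) := by
    apply isCoprime_of_forall_prime
    intro p hp hd1 hd2
    have hpZ : Prime (p : ℤ) := Nat.prime_iff_prime_int.mp hp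
    have hpe : (p : ℤ) ∣ e := by
      have : (p : ℤ) ∣ e ^ 2 := by rw [← hPQ]; exact dvd_mul_of_dvd_left hd1 _
      exact hpZ.dvd_of_dvd_pow this
    have h2A : (p : ℤ) ∣ 2 * A := by
      have := dvd_add hd1 hd2
      rwa [show A + B + (A - B) = 2 * A by ring] at this
    rcases hpZ.dvd_or_dvd h2A with h | h
    · have hp2 := eq_two_of_dvd_two hp h
      subst hp2
      exact hne2 (by exact_mod_cast hpe)
    · exact not_common_prime hcop hp h hpe
  have hcRS : IsCoprime (A + C) (A - C) := by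
    apply isCoprime_of_forall_prime
    intro p hp hd1 hd2
    have hpZ : Prime (p : ℤ) := Nat.prime_iff_prime_int.mp hp
    have hpe : (p : ℤ) ∣ 81 * e ^ 2 := by rw [← hRS]; exact dvd_mul_of_dvd_left hd1 _
    have h2A : (p : ℤ) ∣ 2 * A := by
      have := dvd_add hd1 hd2
      rwa [show A + C + (A - C) = 2 * A by ring] at this
    rcases hpZ.dvd_or_dvd hpe with h81 | he'
    · have hp3 := eq_three_of_dvd_81 hp h81
      subst hp3
      rcases hpZ.dvd_or_dvd h2A with h | h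
      · have := eq_two_of_dvd_two hp h
        omega
      · exact h3 (by exact_mod_cast h)
    · have hpe' : (p : ℤ) ∣ e := hpZ.dvd_of_dvd_pow he'
      rcases hpZ.dvd_or_dvd h2A with h | h
      · have hp2 := eq_two_of_dvd_two hp h
        subst hp2
        exact hne2 (by exact_mod_cast hpe')
      · exact not_common_prime hcop hp h hpe'
  obtain ⟨r, q, t, hr, hq, hrq, hrt⟩ := core hP hQ hR hPQ hRS hcPQ hcRS (by ring) (2 * k)
    (by linear_combination hk)
  refine ⟨r, q, 2 * k, t, ?_, ?_, hrq, hrt⟩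
  · have hA2 : 2 ≤ A := by
      by_contra hlt
      have hA1 : A = 1 := by omega
      rw [hA1] at h2
      nlinarith [sq_nonneg C]
    have hlt : r ^ 2 < A ^ 2 := by
      rw [← hr]
      nlinarith
    have := sq_lt_sq.mp hlt
    rwa [abs_of_pos hA] at this
  · rintro rfl
    rw [hq] at hQ
    norm_num at hQ

/-- The descent step when `e` is even, after the sign normalisation `B + C = 2 k²`. -/
theorem step_even {A e B C k : ℤ} (hA : 0 < A) (he0 : e ≠ 0) (hcop : IsCoprime A e)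
    (he : Even e) (h1 : A ^ 2 - e ^ 2 = B ^ 2) (h2 : A ^ 2 - 81 * e ^ 2 = C ^ 2)
    (hk : B + C = 2 * k ^ 2) :
    ∃ r q s t : ℤ, |r| < A ∧ q ≠ 0 ∧ r ^ 2 - q ^ 2 = s ^ 2 ∧ r ^ 2 - 81 * q ^ 2 = t ^ 2 := by
  have hAodd := odd_of_coprime hcop h1
  have h3 := three_not_dvd_of_coprime hcop h1
  have he2 : Even (e ^ 2) := (Int.even_pow' two_ne_zero).mpr he
  have hBodd : Odd B := by
    have : Odd (B ^ 2) := by
      rw [← h1]
      exact (hAodd.pow).sub_even he2
    exact (Int.odd_pow' two_ne_zero).mp this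
  have hCodd : Odd C := by
    have : Odd (C ^ 2) := by
      rw [← h2]
      exact (hAodd.pow).sub_even (he2.mul_left 81)
    exact (Int.odd_pow' two_ne_zero).mp this
  obtain ⟨f, hf⟩ := he
  obtain ⟨a, ha⟩ := hAodd
  obtain ⟨b, hb⟩ := hBodd
  obtain ⟨c, hc⟩ := hCodd
  have hf0 : f ≠ 0 := by
    rintro rfl
    exact he0 (by rw [hf]; ring)
  have hf2 : 0 < f ^ 2 := by positivity
  have hPQ : (a + b + 1) * (a - b) = f ^ 2 := by
    have : 4 * ((a + b + 1) * (a - b)) = 4 * f ^ 2 := by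
      rw [ha, hb, hf] at h1
      linear_combination h1
    exact mul_left_cancel₀ (by norm_num) this
  have hRS : (a + c + 1) * (a - c) = 81 * f ^ 2 := by
    have : 4 * ((a + c + 1) * (a - c)) = 4 * (81 * f ^ 2) := by
      rw [ha, hc, hf] at h2
      linear_combination h2
    exact mul_left_cancel₀ (by norm_num) this
  obtain ⟨hP, hQ⟩ := pos_of_mul_pos_of_add_pos (a := a + b + 1) (b := a - b)
    (by rw [hPQ]; exact hf2) (by linarith)
  obtain ⟨hR, hS⟩ := pos_of_mul_pos_of_add_pos (a := a + c + 1) (b := a - c)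
    (by rw [hRS]; positivity) (by linarith)
  have hcPQ : IsCoprime (a + b + 1) (a - b) := by
    apply isCoprime_of_forall_prime
    intro p hp hd1 hd2
    have hpZ : Prime (p : ℤ) := Nat.prime_iff_prime_int.mp hp
    have hpf : (p : ℤ) ∣ f := by
      have : (p : ℤ) ∣ f ^ 2 := by rw [← hPQ]; exact dvd_mul_of_dvd_left hd1 _
      exact hpZ.dvd_of_dvd_pow this
    have hpA : (p : ℤ) ∣ A := by
      have := dvd_add hd1 hd2
      rwa [show a + b + 1 + (a - b) = A by rw [ha]; ring] at this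
    exact not_common_prime hcop hp hpA (by rw [hf]; exact dvd_add hpf hpf)
  have hcRS : IsCoprime (a + c + 1) (a - c) := by
    apply isCoprime_of_forall_prime
    intro p hp hd1 hd2
    have hpZ : Prime (p : ℤ) := Nat.prime_iff_prime_int.mp hp
    have hpe : (p : ℤ) ∣ 81 * f ^ 2 := by rw [← hRS]; exact dvd_mul_of_dvd_left hd1 _
    have hpA : (p : ℤ) ∣ A := by
      have := dvd_add hd1 hd2
      rwa [show a + c + 1 + (a - c) = A by rw [ha]; ring] at this
    rcases hpZ.dvd_or_dvd hpe with h81 | hf'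
    · have hp3 := eq_three_of_dvd_81 hp h81
      subst hp3
      exact h3 (by exact_mod_cast hpA)
    · have hpf : (p : ℤ) ∣ f := hpZ.dvd_of_dvd_pow hf'
      exact not_common_prime hcop hp hpA (by rw [hf]; exact dvd_add hpf hpf)
  obtain ⟨r, q, t, hr, hq, hrq, hrt⟩ := core hP hQ hR hPQ hRS hcPQ hcRS (by ring) k
    (by rw [hb, hc] at hk; linarith)
  refine ⟨r, q, k, t, ?_, ?_, hrq, hrt⟩
  · have hlt : r ^ 2 < A ^ 2 := by
      rw [← hr]
      nlinarith
    have := sq_lt_sq.mp hlt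
    rwa [abs_of_pos hA] at this
  · rintro rfl
    rw [hq] at hQ
    norm_num at hQ

/-- Sign normalisation when `e` is odd. -/
theorem sign_odd {A e B C : ℤ} (hcop : IsCoprime A e) (he : Odd e)
    (h1 : A ^ 2 - e ^ 2 = B ^ 2) (h2 : A ^ 2 - 81 * e ^ 2 = C ^ 2) :
    ∃ B' C' k : ℤ, B' ^ 2 = B ^ 2 ∧ C' ^ 2 = C ^ 2 ∧ B' + C' = 4 * k ^ 2 := by
  have hAodd := odd_of_coprime hcop h1
  have he2 : Odd (e ^ 2) := he.pow
  have hBe : Even B := by
    have : Even (B ^ 2) := by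
      rw [← h1]
      exact (hAodd.pow).sub_odd he2
    exact (Int.even_pow' two_ne_zero).mp this
  have hCe : Even C := by
    have : Even (C ^ 2) := by
      rw [← h2]
      exact (hAodd.pow).sub_odd (Odd.mul (by decide) he2)
    exact (Int.even_pow' two_ne_zero).mp this
  obtain ⟨b, hb⟩ := hBe
  obtain ⟨c, hc⟩ := hCe
  have hbc : (b + c) * (b - c) = 20 * e ^ 2 := by
    have : 4 * ((b + c) * (b - c)) = 4 * (20 * e ^ 2) := by
      rw [hb] at h1
      rw [hc] at h2
      linear_combination h2 - h1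
    exact mul_left_cancel₀ (by norm_num) this
  have hpar : Even (b + c) ∧ Even (b - c) := by
    rcases Int.even_or_odd (b + c) with h | h
    · refine ⟨h, ?_⟩
      have : b - c = (b + c) - 2 * c := by ring
      rw [this]
      exact h.sub (even_two_mul c)
    · exfalso
      have h' : Odd (b - c) := by
        have : b - c = (b + c) - 2 * c := by ring
        rw [this]
        exact h.sub_even (even_two_mul c)
      have hodd : Odd ((b + c) * (b - c)) := h.mul h'
      rw [hbc] at hodd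
      have hev : Even (20 * e ^ 2) := Even.mul_right (by decide) _
      exact (Int.not_odd_iff_even.mpr hev) hodd
  obtain ⟨⟨U, hU⟩, ⟨V, hV⟩⟩ := hpar
  have hUV : U * V = 5 * e ^ 2 := by
    have : 4 * (U * V) = 4 * (5 * e ^ 2) := by
      have h' : (U + U) * (V + V) = 20 * e ^ 2 := by rw [← hU, ← hV]; exact hbc
      linear_combination h'
    exact mul_left_cancel₀ (by norm_num) this
  have hcUV : IsCoprime U V := by
    apply isCoprime_of_forall_prime
    intro p hp hd1 hd2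
    have hpZ : Prime (p : ℤ) := Nat.prime_iff_prime_int.mp hp
    have hbUV : b = U + V := by linarith
    have hpB : (p : ℤ) ∣ B := by
      rw [hb, hbUV]
      exact dvd_add (dvd_add hd1 hd2) (dvd_add hd1 hd2)
    have hpe : (p : ℤ) ∣ e := by
      have h5e : (p : ℤ) ∣ 5 * e ^ 2 := by rw [← hUV]; exact dvd_mul_of_dvd_left hd1 _
      rcases hpZ.dvd_or_dvd h5e with h | h
      · have hp5 := eq_five_of_dvd_five hp h
        subst hp5
        obtain ⟨U', hU'⟩ := hd1
        obtain ⟨V', hV'⟩ := hd2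
        have h5 : ((5 : ℕ) : ℤ) ∣ e ^ 2 := by
          refine ⟨U' * V', ?_⟩
          have : (5 : ℤ) * (((5 : ℕ) : ℤ) * (U' * V')) = 5 * e ^ 2 := by
            rw [← hUV, hU', hV']
            push_cast
            ring
          exact (mul_left_cancel₀ (by norm_num) this).symm
        exact hpZ.dvd_of_dvd_pow h5
      · exact hpZ.dvd_of_dvd_pow h
    have hpA : (p : ℤ) ∣ A := by
      have : (p : ℤ) ∣ A ^ 2 := by
        have hA2 : A ^ 2 = B ^ 2 + e ^ 2 := by linarith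
        rw [hA2]
        exact dvd_add (dvd_pow hpB two_ne_zero) (dvd_pow hpe two_ne_zero)
      exact hpZ.dvd_of_dvd_pow this
    exact not_common_prime hcop hp hpA hpe
  rcases sq_or_of_mul_eq_five hcUV hUV with ⟨k, hk⟩ | ⟨k, hk⟩ | ⟨k, hk⟩ | ⟨k, hk⟩
  · exact ⟨B, C, k, rfl, rfl, by linear_combination hb + hc + 2 * hU + 4 * hk⟩
  · exact ⟨-B, -C, k, by ring, by ring, by linear_combination -hb - hc - 2 * hU - 4 * hk⟩
  · exact ⟨B, -C, k, rfl, by ring, by linear_combination hb - hc + 2 * hV + 4 * hk⟩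
  · exact ⟨-B, C, k, by ring, rfl, by linear_combination -hb + hc - 2 * hV - 4 * hk⟩

/-- Sign normalisation when `e` is even. -/
theorem sign_even {A e B C : ℤ} (hcop : IsCoprime A e) (he : Even e)
    (h1 : A ^ 2 - e ^ 2 = B ^ 2) (h2 : A ^ 2 - 81 * e ^ 2 = C ^ 2) :
    ∃ B' C' k : ℤ, B' ^ 2 = B ^ 2 ∧ C' ^ 2 = C ^ 2 ∧ B' + C' = 2 * k ^ 2 := by
  have hAodd := odd_of_coprime hcop h1
  have he2 : Even (e ^ 2) := (Int.even_pow' two_ne_zero).mpr he
  have hBodd : Odd B := by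
    have : Odd (B ^ 2) := by
      rw [← h1]
      exact (hAodd.pow).sub_even he2
    exact (Int.odd_pow' two_ne_zero).mp this
  have hCodd : Odd C := by
    have : Odd (C ^ 2) := by
      rw [← h2]
      exact (hAodd.pow).sub_even (he2.mul_left 81)
    exact (Int.odd_pow' two_ne_zero).mp this
  have hnB : ¬ (2 : ℤ) ∣ B := by
    rw [← even_iff_two_dvd, Int.not_even_iff_odd]; exact hBodd
  obtain ⟨b, hb⟩ := hBodd
  obtain ⟨c, hc⟩ := hCodd
  have hUV : (b + c + 1) * (b - c) = 5 * (2 * e) ^ 2 := by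
    have : 4 * ((b + c + 1) * (b - c)) = 4 * (5 * (2 * e) ^ 2) := by
      rw [hb] at h1
      rw [hc] at h2
      linear_combination h2 - h1
    exact mul_left_cancel₀ (by norm_num) this
  have hcUV : IsCoprime (b + c + 1) (b - c) := by
    apply isCoprime_of_forall_prime
    intro p hp hd1 hd2
    have hpZ : Prime (p : ℤ) := Nat.prime_iff_prime_int.mp hp
    have hpB : (p : ℤ) ∣ B := by
      have := dvd_add hd1 hd2
      rwa [show b + c + 1 + (b - c) = B by rw [hb]; ring] at this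
    have hp2 : p ≠ 2 := by
      rintro rfl
      exact hnB (by exact_mod_cast hpB)
    have hpe : (p : ℤ) ∣ e := by
      have hp2e : (p : ℤ) ∣ 2 * e := by
        have h5e : (p : ℤ) ∣ 5 * (2 * e) ^ 2 := by rw [← hUV]; exact dvd_mul_of_dvd_left hd1 _
        rcases hpZ.dvd_or_dvd h5e with h | h
        · have hp5 := eq_five_of_dvd_five hp h
          subst hp5
          obtain ⟨U', hU'⟩ := hd1
          obtain ⟨V', hV'⟩ := hd2
          have h5 : ((5 : ℕ) : ℤ) ∣ (2 * e) ^ 2 := by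
            refine ⟨U' * V', ?_⟩
            have : (5 : ℤ) * (((5 : ℕ) : ℤ) * (U' * V')) = 5 * (2 * e) ^ 2 := by
              rw [← hUV, hU', hV']
              push_cast
              ring
            exact (mul_left_cancel₀ (by norm_num) this).symm
          exact hpZ.dvd_of_dvd_pow h5
        · exact hpZ.dvd_of_dvd_pow h
      rcases hpZ.dvd_or_dvd hp2e with h | h
      · exact absurd (eq_two_of_dvd_two hp h) hp2
      · exact h
    have hpA : (p : ℤ) ∣ A := by
      have : (p : ℤ) ∣ A ^ 2 := by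
        have hA2 : A ^ 2 = B ^ 2 + e ^ 2 := by linarith
        rw [hA2]
        exact dvd_add (dvd_pow hpB two_ne_zero) (dvd_pow hpe two_ne_zero)
      exact hpZ.dvd_of_dvd_pow this
    exact not_common_prime hcop hp hpA hpe
  rcases sq_or_of_mul_eq_five hcUV hUV with ⟨k, hk⟩ | ⟨k, hk⟩ | ⟨k, hk⟩ | ⟨k, hk⟩
  · exact ⟨B, C, k, rfl, rfl, by linear_combination hb + hc + 2 * hk⟩
  · exact ⟨-B, -C, k, by ring, by ring, by linear_combination -hb - hc - 2 * hk⟩
  · exact ⟨B, -C, k, rfl, by ring, by linear_combination hb - hc + 2 * hk⟩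
  · exact ⟨-B, C, k, by ring, rfl, by linear_combination -hb + hc - 2 * hk⟩

/-- One descent step in the coprime case. -/
theorem descent {A e B C : ℤ} (hA : 0 < A) (he0 : e ≠ 0) (hcop : IsCoprime A e)
    (h1 : A ^ 2 - e ^ 2 = B ^ 2) (h2 : A ^ 2 - 81 * e ^ 2 = C ^ 2) :
    ∃ r q s t : ℤ, |r| < A ∧ q ≠ 0 ∧ r ^ 2 - q ^ 2 = s ^ 2 ∧ r ^ 2 - 81 * q ^ 2 = t ^ 2 := by
  rcases Int.even_or_odd e with he | he
  · obtain ⟨B', C', k, hB', hC', hk⟩ := sign_even hcop he h1 h2
    exact step_even hA he0 hcop he (h1.trans hB'.symm) (h2.trans hC'.symm) hk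
  · obtain ⟨B', C', k, hB', hC', hk⟩ := sign_odd hcop he h1 h2
    exact step_odd hA he0 hcop he (h1.trans hB'.symm) (h2.trans hC'.symm) hk

theorem no_concordant_aux : ∀ (n : ℕ) (A e B C : ℤ), A.natAbs = n → e ≠ 0 →
    A ^ 2 - e ^ 2 = B ^ 2 → A ^ 2 - 81 * e ^ 2 = C ^ 2 → False := by
  intro n
  induction n using Nat.strong_induction_on with
  | _ n ih =>
    intro A e B C hn he h1 h2
    have hA0 : A ≠ 0 := by
      rintro rfl
      have : 0 < e ^ 2 := by positivity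
      nlinarith [sq_nonneg B]
    have hgpos : 0 < Int.gcd A e := Int.gcd_pos_of_ne_zero_left _ hA0
    obtain ⟨a, f, hgcd, hAa, hef⟩ := Int.exists_gcd_one hgpos
    set g : ℤ := (Int.gcd A e : ℤ) with hg
    have hg0 : g ≠ 0 := by
      rw [hg]
      exact_mod_cast hgpos.ne'
    have hg1 : 1 ≤ g := by
      rw [hg]
      exact_mod_cast hgpos
    have ha0 : a ≠ 0 := by
      rintro rfl
      exact hA0 (by rw [hAa]; ring)
    have hf0 : f ≠ 0 := by
      rintro rfl
      exact he (by rw [hef]; ring)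
    have hcop : IsCoprime a f := Int.isCoprime_iff_gcd_eq_one.mpr hgcd
    -- divide `B` and `C` by `g`
    have hgB : g ∣ B := by
      have : g ^ 2 ∣ B ^ 2 := ⟨a ^ 2 - f ^ 2, by rw [← h1, hAa, hef]; ring⟩
      exact (Int.pow_dvd_pow_iff two_ne_zero).mp this
    have hgC : g ∣ C := by
      have : g ^ 2 ∣ C ^ 2 := ⟨a ^ 2 - 81 * f ^ 2, by rw [← h2, hAa, hef]; ring⟩
      exact (Int.pow_dvd_pow_iff two_ne_zero).mp this
    obtain ⟨b, hb⟩ := hgB
    obtain ⟨c, hc⟩ := hgC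
    have h1' : a ^ 2 - f ^ 2 = b ^ 2 := by
      have : g ^ 2 * (a ^ 2 - f ^ 2) = g ^ 2 * b ^ 2 := by
        rw [hAa, hef, hb] at h1
        linear_combination h1
      exact mul_left_cancel₀ (pow_ne_zero 2 hg0) this
    have h2' : a ^ 2 - 81 * f ^ 2 = c ^ 2 := by
      have : g ^ 2 * (a ^ 2 - 81 * f ^ 2) = g ^ 2 * c ^ 2 := by
        rw [hAa, hef, hc] at h2
        linear_combination h2
      exact mul_left_cancel₀ (pow_ne_zero 2 hg0) this
    -- make `a` positive
    have hcop' : IsCoprime |a| f := by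
      rcases abs_choice a with h | h
      · rw [h]; exact hcop
      · rw [h]; exact hcop.neg_left
    have h1'' : |a| ^ 2 - f ^ 2 = b ^ 2 := by rw [sq_abs]; exact h1'
    have h2'' : |a| ^ 2 - 81 * f ^ 2 = c ^ 2 := by rw [sq_abs]; exact h2'
    obtain ⟨r, q, s, t, hr, hq, hs, ht⟩ := descent (abs_pos.mpr ha0) hf0 hcop' h1'' h2''
    refine ih r.natAbs ?_ r q s t rfl hq hs ht
    have hle : |a| ≤ |A| := by
      rw [hAa, abs_mul]
      have : |g| = g := abs_of_pos (by linarith)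
      rw [this]
      nlinarith [abs_nonneg a]
    have hlt : |r| < |A| := lt_of_lt_of_le hr hle
    rw [← hn]
    zify
    exact hlt

/-- No nontrivial pair with `A² - e²` and `A² - 81 e²` both squares. -/
theorem no_concordant (A e : ℤ) (he : e ≠ 0) :
    ¬ (IsSquare (A ^ 2 - e ^ 2) ∧ IsSquare (A ^ 2 - 81 * e ^ 2)) := by
  rintro ⟨⟨B, hB⟩, ⟨C, hC⟩⟩
  exact no_concordant_aux _ A e B C rfl he (by rw [hB]; ring) (by rw [hC]; ring)

/-- No rational `X` with `X`, `X - 1`, `X - 81` all squares. -/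
theorem no_three_squares (X : ℚ) : ¬ (IsSquare X ∧ IsSquare (X - 1) ∧ IsSquare (X - 81)) := by
  rintro ⟨⟨x, hx⟩, ⟨y, hy⟩, ⟨z, hz⟩⟩
  have hxd : (x.den : ℚ) ≠ 0 := by exact_mod_cast x.den_ne_zero
  have hyd : (y.den : ℚ) ≠ 0 := by exact_mod_cast y.den_ne_zero
  have hzd : (z.den : ℚ) ≠ 0 := by exact_mod_cast z.den_ne_zero
  set d : ℤ := (x.den : ℤ) * y.den * z.den with hd
  set a : ℤ := x.num * y.den * z.den with ha
  set b : ℤ := y.num * x.den * z.den with hb
  set c : ℤ := z.num * x.den * y.den with hc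
  have hd0 : d ≠ 0 := by
    rw [hd]
    exact mul_ne_zero (mul_ne_zero (by exact_mod_cast x.den_ne_zero)
      (by exact_mod_cast y.den_ne_zero)) (by exact_mod_cast z.den_ne_zero)
  have hxa : (a : ℚ) = x * d := by
    rw [ha, hd]
    push_cast
    rw [← Rat.mul_den_eq_num x]
    ring
  have hyb : (b : ℚ) = y * d := by
    rw [hb, hd]
    push_cast
    rw [← Rat.mul_den_eq_num y]
    ring
  have hzc : (c : ℚ) = z * d := by
    rw [hc, hd]
    push_cast
    rw [← Rat.mul_den_eq_num z]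
    ring
  apply no_concordant a d hd0
  constructor
  · refine ⟨b, ?_⟩
    have : ((a ^ 2 - d ^ 2 : ℤ) : ℚ) = ((b * b : ℤ) : ℚ) := by
      push_cast
      rw [hxa, hyb]
      linear_combination (d : ℚ) ^ 2 * hy - (d : ℚ) ^ 2 * hx
    exact_mod_cast this
  · refine ⟨c, ?_⟩
    have : ((a ^ 2 - 81 * d ^ 2 : ℤ) : ℚ) = ((c * c : ℤ) : ℚ) := by
      push_cast
      rw [hxa, hzc]
      linear_combination (d : ℚ) ^ 2 * hz - (d : ℚ) ^ 2 * hx
    exact_mod_cast this

end Fermat.Agent.S51
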