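import Mathlib
import Fermat.Agent.S51.DescentCore

set_option autoImplicit false

namespace Fermat.Agent.S51

/-- The curve `Y² = X(X-1)(X-81)` has no rational point with `Y ≠ 0`. -/
theorem no_point_E2 (X Y : ℚ) (h : Y ^ 2 = X * (X - 1) * (X - 81)) : Y = 0 := by
  by_contra hY
  have h2Y : (2 * Y) ≠ 0 := mul_ne_zero two_ne_zero hY
  apply no_three_squares ((X ^ 2 - 81) ^ 2 / (4 * Y ^ 2))
  refine ⟨⟨(X ^ 2 - 81) / (2 * Y), ?_⟩, ⟨(X ^ 2 - 2 * X + 81) / (2 * Y), ?_⟩,
    ⟨(X ^ 2 - 162 * X + 81) / (2 * Y), ?_⟩⟩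
  · field_simp
    ring
  · field_simp
    linear_combination (-16 : ℚ) * h
  · field_simp
    linear_combination (-1296 : ℚ) * h

/-- The rational points of `y² = x(x+9)(x-16)`. -/
theorem points_W (x y : ℚ) (h : y ^ 2 = x * (x + 9) * (x - 16)) :
    x = 0 ∨ x = -9 ∨ x = 16 ∨ x = -4 ∨ x = 36 := by
  by_cases hx : x = 16
  · exact Or.inr (Or.inr (Or.inl hx))
  have hx' : x - 16 ≠ 0 := sub_ne_zero.mpr hx
  have key := no_point_E2 (y ^ 2 / (x - 16) ^ 2) (y * (400 - (x - 16) ^ 2) / (x - 16) ^ 2) (by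
    field_simp
    rw [h]
    ring)
  have h0 : y * (400 - (x - 16) ^ 2) = 0 := by
    have := key
    rw [div_eq_zero_iff] at this
    rcases this with h' | h'
    · exact h'
    · exact absurd (pow_eq_zero_iff (two_ne_zero) |>.mp h') hx'
  rcases mul_eq_zero.mp h0 with hy | hq
  · rw [hy] at h
    have h3 : x * (x + 9) * (x - 16) = 0 := by rw [← h]; ring
    rcases mul_eq_zero.mp h3 with h4 | h4
    · rcases mul_eq_zero.mp h4 with h5 | h5
      · exact Or.inl h5
      · exact Or.inr (Or.inl (by linarith))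
    · exact absurd h4 hx'
  · have h4 : (x - 36) * (x + 4) = 0 := by linear_combination -hq
    rcases mul_eq_zero.mp h4 with h5 | h5
    · exact Or.inr (Or.inr (Or.inr (Or.inr (by linarith))))
    · exact Or.inr (Or.inr (Or.inr (Or.inl (by linarith))))

end Fermat.Agent.S51
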